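import Fermat.Agent.MzGal.Index

/-!
# The Selmer argument: an element of the Hecke ring outside `P` kills `J(ℚ)` up to torsion
-/

set_option autoImplicit false
set_option linter.unusedSectionVars false

namespace Fermat.Agent.MzGal

open Fermat.Agent.SEL
open scoped Pointwise

local notation "Qb" => AlgebraicClosure ℚ
local notation "Γ" => (AlgebraicClosure ℚ ≃ₐ[ℚ] AlgebraicClosure ℚ)

section Rat

variable (R : Type*) [CommRing R] (J : Type*) [AddCommGroup J] [Module R J]
  [DistribMulAction Γ J] [SMulCommClass Γ R J]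

/-- the rational points -/
def ratPts : Submodule R J where
  carrier := {x | ∀ s : Γ, s • x = x}
  zero_mem' := fun s => smul_zero s
  add_mem' := fun ha hb s => by rw [smul_add, ha s, hb s]
  smul_mem' := fun r x hx s => by rw [smul_comm, hx s]

variable {R J}

theorem mem_ratPts {x : J} : x ∈ ratPts R J ↔ ∀ s : Γ, s • x = x := Iff.rfl

theorem finite_ratPts (h : AddGroup.FG (FixedPoints.addSubgroup Γ J)) :
    Module.Finite ℤ (ratPts R J) := by
  have h1 : Module.Finite ℤ (FixedPoints.addSubgroup Γ J) := Module.Finite.iff_addGroup_fg.2 h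
  let f : (FixedPoints.addSubgroup Γ J) →+ ratPts R J :=
    { toFun := fun x => ⟨x.1, x.2⟩
      map_zero' := rfl
      map_add' := fun _ _ => rfl }
  exact Module.Finite.of_surjective f.toIntLinearMap (fun x => ⟨⟨x.1, x.2⟩, rfl⟩)

end Rat

theorem finite_torsion {X : Type*} [AddCommGroup X] (h : Module.Finite ℤ X) :
    Finite {x : X // ∃ m : ℕ, m ≠ 0 ∧ m • x = 0} := by
  have h1 : IsNoetherian ℤ X := isNoetherian_of_isNoetherianRing_of_finite ℤ X
  have h2 : Module.Finite ℤ (Submodule.torsion ℤ X) := Module.IsNoetherian.finite ℤ _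
  have h3 : Finite (Submodule.torsion ℤ X) :=
    Module.finite_of_fg_torsion _ (Submodule.torsion_isTorsion)
  refine Finite.of_injective (fun x : {x : X // ∃ m : ℕ, m ≠ 0 ∧ m • x = 0} =>
    (⟨x.1, ?_⟩ : Submodule.torsion ℤ X)) (fun x y h => Subtype.ext (congrArg (fun z => z.1) h))
  obtain ⟨m, hm, hx⟩ := x.2
  rw [Submodule.mem_torsion_iff]
  refine ⟨⟨(m : ℤ), mem_nonZeroDivisors_of_ne_zero (by exact_mod_cast hm)⟩, ?_⟩
  show (m : ℤ) • x.1 = 0
  rw [natCast_zsmul, hx]

section Main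

variable {R : Type*} [CommRing R] {P : Ideal R} {J : Type*} [AddCommGroup J] [Module R J]
  [DistribMulAction Γ J] [SMulCommClass Γ R J] {q N : ℕ}

/-- the subgroup `m X` -/
def mulRange (X : Type*) [AddCommGroup X] (m : ℕ) : AddSubgroup X :=
  (nsmulAddMonoidHom m : X →+ X).range

theorem mem_mulRange {X : Type*} [AddCommGroup X] {m : ℕ} {x : X} :
    x ∈ mulRange X m ↔ ∃ y, m • y = x := Iff.rfl

/-- the bound for the Selmer classes of the rational points -/
theorem card_range_le (H : GalMod P J q N) {Aq AN : ValuationSubring Qb}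
    (hAq : Aq.LiesOverPrime q) (hAN : AN.LiesOverPrime N)
    (hfg : Module.Finite ℤ (ratPts R J)) {cQ cN n : ℕ}
    {M0 : AddSubgroup (primT P J (q ^ n))} (LQ : LocQ P J q Aq cQ n M0)
    (LN : LocN P J q AN cN n) {e : R} (he : ∀ y : J, q ^ n • y = 0 → e • y ∈ primT P J (q ^ n))
    (φ : ratPts R J →+ ratPts R J ⧸ mulRange (ratPts R J) (q ^ n))
    (hφ : ∀ x, φ x = QuotientAddGroup.mk (e • ((cQ * cN) • x))) :
    Finite φ.range ∧ (Nat.card φ.range) ^ 2 ≤
      (Nat.card {x : ratPts R J // ∃ m : ℕ, m ≠ 0 ∧ m • x = 0}) ^ 2 * cQ * cN := by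
  classical
  have hfinM := finite_primT H n
  have hsn : ∀ (k : ℕ) (s : Γ) (x : J), s • (k • x) = k • (s • x) := fun k s x =>
    map_nsmul (DistribSMul.toAddMonoidHom J s) k x
  have hrn : ∀ (k : ℕ) (r : R) (x : J), r • (k • x) = k • (r • x) := fun k r x =>
    (smul_comm k r x).symm
  have hse : ∀ (s : Γ) (x : J), s • (e • x) = e • (s • x) := fun s x => smul_comm s e x
  have hconj : ∀ s ∈ AN.decompositionSubgroup ℚ, ∀ t ∈ AN.inertiaSubgroupIn ℚ,
      s⁻¹ * t * s ∈ AN.inertiaSubgroupIn ℚ := by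
    intro s hs t ht
    have hs' : s • AN = AN := hs
    exact conj_mem_inertia H.hN hAN (by rw [hs']; exact ht)
  -- the choice of the points
  have hx : ∀ b : φ.range, ∃ x : ratPts R J, φ x = b := fun b => b.2
  choose x hx using hx
  choose y hy using fun b : φ.range => H.div n ((cQ * cN) • (x b : J))
  choose z0 hz0 hzI0 using fun b : φ.range => LN.kum (x b : J) (x b).2
  let z : φ.range → J := fun b => cQ • z0 b
  have hz : ∀ b, q ^ n • z b = (cQ * cN) • (x b : J) := by
    intro b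
    show q ^ n • (cQ • z0 b) = _
    rw [smul_comm, hz0, smul_smul]
  have hzI : ∀ b, ∀ s ∈ AN.inertiaSubgroupIn ℚ, s • z b = z b := by
    intro b s hs
    show s • (cQ • z0 b) = cQ • z0 b
    rw [hsn, hzI0 b s hs]
  -- the twisted points
  have hy1 : ∀ (b : φ.range) (s : Γ), s • (e • y b) - e • y b ∈ primT P J (q ^ n) := by
    intro b s
    rw [hse, ← smul_sub]
    apply he
    rw [nsmul_sub, ← hsn, hy, hsn, (x b).2 s, sub_self]
  let f : φ.range → Γ → primT P J (q ^ n) := fun b s => ⟨s • (e • y b) - e • y b, hy1 b s⟩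
  have hm1 : ∀ b : φ.range, e • (y b - z b) ∈ primT P J (q ^ n) := by
    intro b
    apply he
    rw [nsmul_sub, hy, hz, sub_self]
  let m : φ.range → primT P J (q ^ n) := fun b => ⟨e • (y b - z b), hm1 b⟩
  let Mb : AddSubgroup (primT P J (q ^ n)) :=
    { carrier := {a | ∀ s ∈ AN.inertiaSubgroupIn ℚ, s • a = a}
      zero_mem' := fun s _ => smul_zero s
      add_mem' := fun ha hb s hs => by rw [smul_add, ha s hs, hb s hs]
      neg_mem' := fun ha s hs => by rw [smul_neg, ha s hs] }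
  have hdec : ∀ (b : φ.range) (s : Γ),
      ((f b s - (s • m b - m b) : primT P J (q ^ n)) : J) = e • (s • z b - z b) := by
    intro b s
    show s • (e • y b) - e • y b - (s • (e • (y b - z b)) - e • (y b - z b)) = _
    rw [hse, hse, smul_sub s, smul_sub e, smul_sub e, smul_sub e]
    abel
  have hfinι : Finite φ.range ∧ Nat.card φ.range * Nat.card Mb ≤
      Nat.card (invGroup Qb Mb) * Nat.card M0 := by
    refine mazur_inequality (Mb := Mb) H.hN (selHyp H hAq hAN LQ) ?_ ?_ ?_ LQ.pr f m ?_ ?_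
    · intro M2 h2 hbot
      obtain ⟨M1, h1, h3, h4⟩ := exists_index_primT H n M2 h2 hbot
      refine ⟨M1, h1, h3, h4, fun s hs a ha => ?_⟩
      refine smul_sub_mem_of_unipotent H.hq h1 h4 s (h3 s) (h2 s) (fun a _ => ?_) ha
      rw [LN.unip s hs a, sub_self]
      exact zero_mem _
    · -- stability under the decomposition group
      intro s hs b hb t ht
      have h1 := hconj s hs t ht
      have h2 := hb _ h1
      rw [mul_smul, mul_smul, inv_smul_eq_iff] at h2
      exact h2
    · exact fun s hs b hb => hb s hs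
    · intro b
      have hkum := LQ.kum (e • y b) (hy1 b) ⟨cN • (e • (x b : J)), fun s => by
        rw [hsn, hse, (x b).2 s], by
        rw [smul_smul, ← hrn, hy, hrn]⟩
      refine ⟨?_, ?_, ?_, hkum.1, hkum.2, ?_, ?_⟩
      · intro s t
        apply Subtype.ext
        show (s * t) • (e • y b) - e • y b = (s • (e • y b) - e • y b) +
          s • (t • (e • y b) - e • y b)
        rw [mul_smul, smul_sub s]
        abel
      · obtain ⟨E, hE, hE1⟩ := H.level (e • y b)
        refine ⟨E, hE, fun s hs => Subtype.ext ?_⟩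
        show s • (e • y b) - e • y b = 0
        rw [hE1 s (fun w hw => (IntermediateField.mem_fixingSubgroup_iff E s).1 hs w hw), sub_self]
      · intro ℓ h1 h2 h3 A hA s hs
        apply Subtype.ext
        show s • (e • y b) - e • y b = 0
        rw [H.unr ℓ h1 h2 h3 A hA s hs (e • y b) ⟨n, (hy1 b s).2⟩, sub_self]
      · intro s hs t ht
        have h1 := hconj s hs t ht
        apply Subtype.ext
        rw [coe_smul_primT, hdec, hse, smul_sub t, hzI b t ht]
        have h2 := hzI b _ h1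
        rw [mul_smul, mul_smul, inv_smul_eq_iff] at h2
        rw [h2]
      · intro s hs
        rw [← sub_eq_zero]
        apply Subtype.ext
        rw [hdec, hzI b s hs, sub_self, smul_zero]
        rfl
    · intro b b' hbb
      obtain ⟨a, b0, -, hab⟩ := mem_cobGroup.1 hbb
      have h1 : ∀ s : Γ, (s • (e • y b) - e • y b) - (s • (e • y b') - e • y b') =
          s • (a : J) - a := by
        intro s
        have h2 := congrFun (congrArg Prod.fst hab) s
        exact congrArg (fun w : primT P J (q ^ n) => (w : J)) h2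
      have h3 : e • y b - e • y b' - a ∈ ratPts R J := by
        intro s
        rw [smul_sub s, smul_sub s]
        have h4 := h1 s
        rw [← sub_eq_zero] at h4 ⊢
        rw [← h4]
        abel
      apply Subtype.ext
      rw [← hx b, ← hx b', hφ, hφ, QuotientAddGroup.eq, mem_mulRange]
      refine ⟨-⟨_, h3⟩, Subtype.ext ?_⟩
      show q ^ n • -(e • y b - e • y b' - (a : J)) = -(e • ((cQ * cN) • (x b : J))) +
        e • ((cQ * cN) • (x b' : J))
      rw [smul_neg, nsmul_sub, nsmul_sub, a.2.2, ← hrn, ← hrn, hy, hy]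
      abel
  refine ⟨hfinι.1, ?_⟩
  have hfinT := finite_torsion hfg
  have hinv : Nat.card (invGroup Qb Mb) ≤
      Nat.card {x : ratPts R J // ∃ m : ℕ, m ≠ 0 ∧ m • x = 0} := by
    refine Nat.card_le_card_of_injective (fun a : invGroup Qb Mb => ⟨⟨(a.1 : J), fun s => ?_⟩,
      q ^ n, pow_ne_zero n H.hq.ne_zero, ?_⟩) ?_
    · exact congrArg (fun w : primT P J (q ^ n) => (w : J)) (a.2.2 s)
    · exact Subtype.ext a.1.2.2
    · intro a a' h
      have h1 := congrArg (fun w => ((w.1 : ratPts R J) : J)) h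
      exact Subtype.ext (Subtype.ext h1)
  have hcardMb : Nat.card (primT P J (q ^ n)) ≤ cN * (Nat.card Mb) ^ 2 := LN.card
  have hMbpos : 0 < Nat.card Mb := Nat.card_pos
  set T0 := Nat.card {x : ratPts R J // ∃ m : ℕ, m ≠ 0 ∧ m • x = 0}
  have h1 : (Nat.card φ.range * Nat.card Mb) ^ 2 ≤ (T0 * Nat.card M0) ^ 2 :=
    Nat.pow_le_pow_left (hfinι.2.trans (Nat.mul_le_mul_right _ hinv)) 2
  have h2 : (Nat.card φ.range) ^ 2 * (Nat.card Mb) ^ 2 ≤ (T0 ^ 2 * cQ * cN) * (Nat.card Mb) ^ 2 := by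
    calc (Nat.card φ.range) ^ 2 * (Nat.card Mb) ^ 2 = (Nat.card φ.range * Nat.card Mb) ^ 2 := by
          ring
      _ ≤ (T0 * Nat.card M0) ^ 2 := h1
      _ = T0 ^ 2 * (Nat.card M0) ^ 2 := by ring
      _ ≤ T0 ^ 2 * (cQ * Nat.card (primT P J (q ^ n))) := Nat.mul_le_mul_left _ LQ.card
      _ ≤ T0 ^ 2 * (cQ * (cN * (Nat.card Mb) ^ 2)) :=
          Nat.mul_le_mul_left _ (Nat.mul_le_mul_left _ hcardMb)
      _ = _ := by ring
  exact Nat.le_of_mul_le_mul_right h2 (pow_pos hMbpos 2)

/-- **The Selmer argument.** -/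
theorem exists_annihilator_of_local (H : GalMod P J q N) {Aq AN : ValuationSubring Qb}
    (hAq : Aq.LiesOverPrime q) (hAN : AN.LiesOverPrime N)
    (hfg : AddGroup.FG (FixedPoints.addSubgroup Γ J)) {cQ cN : ℕ} (hcQ : cQ ≠ 0) (hcN : cN ≠ 0)
    (hLQ : ∀ n, ∃ M0, LocQ P J q Aq cQ n M0) (hLN : ∀ n, LocN P J q AN cN n) :
    ∃ t : R, t ∉ P ∧ ∃ m : ℕ, m ≠ 0 ∧ ∀ x : J, (∀ s : Γ, s • x = x) → m • (t • x) = 0 := by
  classical
  have hPp := H.hP
  have hfg' : Module.Finite ℤ (ratPts R J) := finite_ratPts hfg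
  set T0 := Nat.card {x : ratPts R J // ∃ m : ℕ, m ≠ 0 ∧ m • x = 0}
  set K := T0 ^ 2 * cQ * cN with hK
  obtain ⟨a, c', hc', hcc⟩ := Nat.exists_eq_pow_mul_and_not_dvd (mul_ne_zero hcQ hcN) q
    H.hq.ne_one
  set n := K + a + 1 with hn
  obtain ⟨M0, LQ⟩ := hLQ n
  -- the projector
  have hfin := (H.fin n).to_subtype
  let Y : Submodule R J :=
    { carrier := {x | q ^ n • x = 0}
      zero_mem' := smul_zero _
      add_mem' := fun {a b} ha hb => by
        show q ^ n • (a + b) = 0
        rw [nsmul_add, show q ^ n • a = 0 from ha, show q ^ n • b = 0 from hb, add_zero]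
      smul_mem' := fun r x hx => by
        show q ^ n • (r • x) = 0
        rw [smul_comm, show q ^ n • x = 0 from hx, smul_zero] }
  have hfinY : Finite Y := hfin
  obtain ⟨e, he1, he2, -⟩ := exists_proj (P := P) (Y := Y)
  have he : ∀ y : J, q ^ n • y = 0 → e • y ∈ primT P J (q ^ n) := by
    intro y hy
    obtain ⟨k, hk⟩ := he2 ⟨y, hy⟩
    refine ⟨⟨k, fun b hb => ?_⟩, ?_⟩
    · exact congrArg (fun w : Y => (w : J)) (hk b hb)
    · rw [smul_comm, hy, smul_zero]
  have heP : e ∉ P := by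
    intro h
    have h1 := sub_mem h he1
    rw [sub_sub_cancel] at h1
    exact H.hP.ne_top ((Ideal.eq_top_iff_one P).2 h1)
  -- the subgroup `B`
  let φ : ratPts R J →+ ratPts R J ⧸ mulRange (ratPts R J) (q ^ n) :=
    (QuotientAddGroup.mk' _).comp ((Module.toAddMonoidEnd R (ratPts R J) e : _ →+ _).comp
      (nsmulAddMonoidHom (cQ * cN)))
  have hφ : ∀ x, φ x = QuotientAddGroup.mk (e • ((cQ * cN) • x)) := fun x => rfl
  obtain ⟨hBfin, hB⟩ := card_range_le H hAq hAN hfg' LQ (hLN n) he φ hφ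
  have hBK : Nat.card φ.range ≤ K := by
    refine le_trans ?_ hB
    rw [pow_two]
    exact Nat.le_mul_self _
  have hkill : ∀ b : φ.range, q ^ K • b = 0 := by
    intro b
    have h1 : q ^ n • b = 0 := by
      obtain ⟨x, hx⟩ := b.2
      apply Subtype.ext
      show q ^ n • (b : ratPts R J ⧸ mulRange (ratPts R J) (q ^ n)) = 0
      rw [← hx, hφ, ← QuotientAddGroup.mk_nsmul, QuotientAddGroup.eq_zero_iff, mem_mulRange]
      exact ⟨_, rfl⟩
    obtain ⟨j, -, hj⟩ := (Nat.dvd_prime_pow H.hq).1 (addOrderOf_dvd_of_nsmul_eq_zero h1)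
    have h2 : addOrderOf b ≤ K :=
      (Nat.le_of_dvd Nat.card_pos (addOrderOf_dvd_natCard b)).trans hBK
    rw [hj] at h2
    have h3 : j ≤ K := by
      have := (Nat.lt_pow_self (n := j) H.hq.one_lt).le
      omega
    apply addOrderOf_dvd_iff_nsmul_eq_zero.1
    rw [hj]
    exact pow_dvd_pow q h3
  -- the conclusion
  have hc'P : (c' : R) ∉ P := by
    intro h
    have hcop : Nat.Coprime c' q := ((Nat.Prime.coprime_iff_not_dvd H.hq).2 hc').symm
    have h1 : (1 : R) ∈ P := by
      have h2 := Nat.gcd_eq_gcd_ab c' q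
      rw [Nat.Coprime.gcd_eq_one hcop] at h2
      have h3 : (1 : R) = (c' : R) * ((Nat.gcdA c' q : ℤ) : R) +
          (q : R) * ((Nat.gcdB c' q : ℤ) : R) := by
        have := congrArg (fun w : ℤ => (w : R)) h2
        push_cast at this
        exact this
      rw [h3]
      exact add_mem (Ideal.mul_mem_right _ _ h) (Ideal.mul_mem_right _ _ H.hqP)
    exact H.hP.ne_top ((Ideal.eq_top_iff_one P).2 h1)
  obtain ⟨t, ht1, ht2⟩ := exists_annihilator (P := P) H.hqP hfg' (K := K + a)
    (e := (c' : R) * e) (fun h => (H.hP.mem_or_mem h).elim hc'P heP) (by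
      intro x
      have h1 := hkill ⟨φ x, x, rfl⟩
      have h2 : q ^ K • φ x = 0 := congrArg (fun w : φ.range => w.1) h1
      rw [hφ, ← QuotientAddGroup.mk_nsmul, QuotientAddGroup.eq_zero_iff, mem_mulRange] at h2
      obtain ⟨y, hy⟩ := h2
      refine ⟨y, ?_⟩
      rw [← hn, hy, hcc, mul_smul, Nat.cast_smul_eq_nsmul, smul_comm e, mul_smul, pow_add,
        mul_smul])
  refine ⟨t, ht1, q ^ (K + a), pow_ne_zero _ H.hq.ne_zero, fun x hx => ?_⟩
  exact congrArg (fun w : ratPts R J => (w : J)) (ht2 ⟨x, hx⟩)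

end Main

end Fermat.Agent.MzGal
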