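import Fermat.Agent.MzGal.Hecke
import Fermat.Agent.MzGal.Main
import Fermat.Agent.MW.WeakJ
import Fermat.Agent.Tate.Package
import Fermat.Agent.Cusps.GenusFinal

/-!
# `GalMod` for the Jacobian `J₀(N)` and the Eisenstein prime
-/

set_option autoImplicit false
set_option linter.unusedSectionVars false
set_option synthInstance.maxHeartbeats 400000

noncomputable section

open ModularCurve AlgebraicCurve

namespace Fermat.Agent.MzGal

open Fermat.Agent.HeckeRed Fermat.Agent.Tate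

local notation "Qb" => AlgebraicClosure ℚ
local notation "Γ" => (AlgebraicClosure ℚ ≃ₐ[ℚ] AlgebraicClosure ℚ)

section

variable (N : ℕ) [NeZero N]

/-- the Eisenstein character `T_ℓ ↦ ℓ + 1` -/
def eps : HRing N →+* ℤ := MvPolynomial.eval fun ℓ => (((ℓ.1 : ℕ) : ℤ) + 1)

theorem eps_genT (ℓ : GoodPrime N) : eps N (genT N ℓ) = ((ℓ.1 : ℕ) : ℤ) + 1 :=
  MvPolynomial.eval_X _

/-- the Eisenstein prime above `q` -/
def PEis (q : ℕ) : Ideal (HRing N) := (Ideal.span {(q : ℤ)}).comap (eps N)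

theorem mem_PEis {q : ℕ} {r : HRing N} : r ∈ PEis N q ↔ (q : ℤ) ∣ eps N r := by
  rw [PEis, Ideal.mem_comap, Ideal.mem_span_singleton]

theorem isPrime_PEis {q : ℕ} (hq : q.Prime) : (PEis N q).IsPrime := by
  have : (Ideal.span {(q : ℤ)}).IsPrime :=
    (Ideal.span_singleton_prime (by exact_mod_cast hq.ne_zero)).2 (Nat.prime_iff_prime_int.1 hq)
  exact Ideal.IsPrime.comap (eps N)

theorem hasPackages : HasPackages N := hasPackages_of_genusEq (Fermat.Agent.Cusps.genusEq N)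

/-- the global facts on `J₀(N)` -/
theorem galMod {q : ℕ} (hq : q.Prime) (hN : N.Prime) :
    GalMod (PEis N q) (JZero N) q N where
  hq := hq
  hN := hN
  hP := isPrime_PEis N hq
  hqP := by rw [mem_PEis, map_natCast]
  fin n := Fermat.Agent.MW.finite_torsion (pow_pos hq.pos n)
  div n x := Fermat.Agent.BaseChangeFF.pic0_divisible Qb (modularFunctionFieldBar N) (q ^ n)
    (pow_pos hq.pos n) x
  level := Fermat.Agent.GalJ.level_JZero N
  unr := by
    rintro ℓ hℓ hℓq hℓN A hA s hs x ⟨n, hn⟩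
    have hnd : ¬ ℓ ∣ N := fun h => hℓN ((Nat.prime_dvd_prime_iff_eq hℓ hN).1 h)
    obtain ⟨P⟩ := hasPackages N ℓ hℓ hnd A hA
    have h1 : ¬ ℓ ∣ q ^ n := fun h =>
      hℓq ((Nat.prime_dvd_prime_iff_eq hℓ hq).1 (hℓ.dvd_of_dvd_pow h))
    rw [← sub_eq_zero]
    refine P.tors (q ^ n) h1 _ hn ?_
    rw [map_sub, P.inertia s hs, sub_self]
  es := by
    intro ℓ hℓ hℓq hℓN
    have hnd : ¬ ℓ ∣ N := fun h => hℓN ((Nat.prime_dvd_prime_iff_eq hℓ hN).1 h)
    refine ⟨genT N ⟨⟨ℓ, hℓ⟩, hnd⟩, ?_, ?_⟩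
    · rw [mem_PEis, map_sub, eps_genT, map_add, map_natCast, map_one]
      simp
    · intro A hA σ hσ x hx
      have : Fact q.Prime := ⟨hq⟩
      rw [genT_smul]
      exact frobJ_of_packages (p := q) (hasPackages N) ℓ hℓ hnd hℓq A hA σ hσ x hx

end

end Fermat.Agent.MzGal
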