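import Fermat.Agent.Degen.HeckeEq
import Fermat.Agent.GalJ.Equiv
import Fermat.Prelude.Def_ModularCurve_HeckeModule

/-!
# The anemic Hecke ring acting on `J₀(N)`
-/

set_option autoImplicit false
set_option linter.unusedSectionVars false
set_option synthInstance.maxHeartbeats 400000

noncomputable section

open ModularCurve AlgebraicCurve

namespace Fermat.Agent.MzGal

open Fermat.Agent.Degen Fermat.Agent.FunField

local notation "Qb" => AlgebraicClosure ℚ
local notation "Γ" => (AlgebraicClosure ℚ ≃ₐ[ℚ] AlgebraicClosure ℚ)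

variable (N : ℕ) [NeZero N]

/-- Hecke operators commute. -/
theorem heckeOperatorAlong_comm {ℓ ℓ' : ℕ} [NeZero ℓ] [NeZero ℓ'] (hℓ' : ℓ'.Prime)
    (h : ¬ ℓ' ∣ N * ℓ) (x : JZero N) :
    heckeOperatorAlong Qb N ℓ' (heckeOperatorAlong Qb N ℓ x) =
      heckeOperatorAlong Qb N ℓ (heckeOperatorAlong Qb N ℓ' x) := by
  have : NeZero (N * ℓ) := ⟨mul_ne_zero (NeZero.ne N) (NeZero.ne ℓ)⟩
  rw [Degen.heckeOperatorAlong_apply N ℓ, Degen.heckeOperatorAlong_apply N ℓ (heckeOperatorAlong Qb N ℓ' x)]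
  have h1 := pushPic_heckeOperatorAlong (L := Qb) (N := N) (M := N * ℓ) (ℓ := ℓ') (d := 1) hℓ' h
    (by rw [mul_one]; exact dvd_mul_right N ℓ) (heckeAlphaBar Qb N ℓ) (fun x => by
      rw [coe_heckeAlphaBar, qExpand_one_apply])
  have h2 := pullPic_heckeOperatorAlong (L := Qb) (N := N) (M := N * ℓ) (ℓ := ℓ') (d := ℓ) hℓ' h
    dvd_rfl (heckeBetaBar Qb N ℓ) (fun x => by rw [coe_heckeBetaBar])
  rw [← h1, ← h2]

theorem heckeOperatorBar_comm (ℓ ℓ' : Nat.Primes) (h : ¬ (ℓ' : ℕ) ∣ N) :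
    heckeOperatorBar N ℓ * heckeOperatorBar N ℓ' = heckeOperatorBar N ℓ' * heckeOperatorBar N ℓ := by
  by_cases hne : ℓ = ℓ'
  · rw [hne]
  have : NeZero (ℓ : ℕ) := ⟨ℓ.2.ne_zero⟩
  have : NeZero (ℓ' : ℕ) := ⟨ℓ'.2.ne_zero⟩
  have h1 : ¬ (ℓ' : ℕ) ∣ N * ℓ := by
    intro hd
    rcases (Nat.Prime.dvd_mul ℓ'.2).1 hd with h2 | h2
    · exact h h2
    · exact hne (Subtype.ext ((Nat.prime_dvd_prime_iff_eq ℓ'.2 ℓ.2).1 h2).symm)
  ext x
  exact (heckeOperatorAlong_comm N ℓ'.2 h1 x).symm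

/-- for `N` prime all Hecke operators commute -/
theorem heckeOperatorsCommuteBar_of_prime [hN : Fact N.Prime] : HeckeOperatorsCommuteBar N := by
  intro ℓ ℓ'
  by_cases h : (ℓ' : ℕ) ∣ N
  · by_cases h' : (ℓ : ℕ) ∣ N
    · have h1 := (Nat.prime_dvd_prime_iff_eq ℓ.2 hN.out).1 h'
      have h2 := (Nat.prime_dvd_prime_iff_eq ℓ'.2 hN.out).1 h
      have h3 : ℓ = ℓ' := Subtype.ext (h1.trans h2.symm)
      rw [h3]
    · exact (heckeOperatorBar_comm N ℓ' ℓ h').symm
  · exact heckeOperatorBar_comm N ℓ ℓ' h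

/-- the index set of the good primes -/
abbrev GoodPrime : Type := {ℓ : Nat.Primes // ¬ (ℓ : ℕ) ∣ N}

/-- the anemic Hecke ring (polynomial ring on the `T_ℓ`, `ℓ ∤ N`) -/
abbrev HRing : Type := MvPolynomial (GoodPrime N) ℤ

/-- the generator `T_ℓ` -/
def genT (ℓ : GoodPrime N) : HRing N := MvPolynomial.X ℓ

/-- the subalgebra generated by the Hecke operators `T_ℓ`, `ℓ ∤ N` -/
abbrev hSub : Subalgebra ℤ (Module.End ℤ (JZero N)) :=
  Algebra.adjoin ℤ (Set.range fun ℓ : GoodPrime N => heckeOperatorBar N ℓ.1)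

theorem hSub_comm : IsMulCommutative (hSub N) :=
  Algebra.isMulCommutative_adjoin ℤ (by
    rintro _ ⟨ℓ, rfl⟩ _ ⟨ℓ', rfl⟩
    exact heckeOperatorBar_comm N ℓ.1 ℓ'.1 ℓ'.2)

open scoped IsMulCommutative in
/-- evaluation of the Hecke ring -/
def hEvalAux : HRing N →ₐ[ℤ] hSub N :=
  haveI := hSub_comm N
  MvPolynomial.aeval fun ℓ => (⟨heckeOperatorBar N ℓ.1, Algebra.subset_adjoin ⟨ℓ, rfl⟩⟩ : hSub N)

/-- the action of the Hecke ring -/
def hEval : HRing N →+* Module.End ℤ (JZero N) := ((hSub N).val.comp (hEvalAux N)).toRingHom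

open scoped IsMulCommutative in
theorem hEval_genT (ℓ : GoodPrime N) : hEval N (genT N ℓ) = heckeOperatorBar N ℓ.1 := by
  haveI := hSub_comm N
  have h : hEvalAux N (MvPolynomial.X ℓ) = ⟨heckeOperatorBar N ℓ.1, Algebra.subset_adjoin ⟨ℓ, rfl⟩⟩ :=
    MvPolynomial.aeval_X _ ℓ
  exact congrArg Subtype.val h

instance hModule : Module (HRing N) (JZero N) := Module.compHom (JZero N) (hEval N)

theorem hsmul_def (r : HRing N) (x : JZero N) : r • x = hEval N r x := rfl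

theorem genT_smul (ℓ : GoodPrime N) (x : JZero N) : genT N ℓ • x = heckeOperatorBar N ℓ.1 x := by
  rw [hsmul_def, hEval_genT]

theorem C_smul (a : ℤ) (x : JZero N) : (MvPolynomial.C a : HRing N) • x = a • x := by
  rw [hsmul_def, ← MvPolynomial.algebraMap_eq, eq_intCast, map_intCast]
  rfl

instance : SMulCommClass Γ (HRing N) (JZero N) where
  smul_comm σ r x := by
    induction r using MvPolynomial.induction_on with
    | C a =>
      rw [C_smul, C_smul]
      exact map_zsmul (DistribSMul.toAddMonoidHom (JZero N) σ) a x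
    | add p q hp hq => rw [add_smul, add_smul, smul_add, hp, hq]
    | mul_X p ℓ hp =>
      have h1 : ∀ y : JZero N, (p * MvPolynomial.X ℓ) • y = genT N ℓ • (p • y) := by
        intro y
        rw [mul_comm, mul_smul]
        rfl
      rw [h1, h1, genT_smul, genT_smul, ← GalJ.heckeOperatorBar_smul, hp]

end Fermat.Agent.MzGal
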