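import Fermat.Agent.MzGal.RedInputs
import Fermat.Agent.MzGal.Hecke
import Fermat.Agent.MzCusp.Final
import Fermat.Agent.BaseChangeFF.Divisible

/-!
# The reduction map of the prelude is Hecke equivariant
-/

set_option autoImplicit false
set_option linter.unusedSectionVars false
set_option maxHeartbeats 1000000
set_option synthInstance.maxHeartbeats 400000

noncomputable section

open AlgebraicCurve Module ModularCurve HahnSeries

attribute [-instance] Fermat.Agent.X0Places.ffField Fermat.Agent.X0Places.ffAlgebra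

namespace Fermat.Agent.MzGal

open Fermat.Agent.Deuring Fermat.Agent.FunField Fermat.Agent.HeckeRed Fermat.Agent.Igusa
  Fermat.Agent.FunField.PlaceLemmas Fermat.Agent.TorsInj Fermat.Agent.MzCusp

local notation "Qb" => AlgebraicClosure ℚ

section

variable {N : ℕ} [NeZero N] {A : ValuationSubring Qb} {ℓ : ℕ}

theorem natCast_ne_zero_res (hℓ : ℓ.Prime) (hℓN : ¬ ℓ ∣ N) (hA : A.LiesOverPrime ℓ) :
    (N : IsLocalRing.ResidueField A) ≠ 0 := by
  have i2 : CharP (IsLocalRing.ResidueField A) ℓ := HeckeRed.charP_residueField hℓ hA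
  exact fun h => hℓN ((CharP.cast_eq_zero_iff _ ℓ N).mp h)

/-- a reduction map exists -/
theorem exists_isReduction (hN : (N : IsLocalRing.ResidueField A) ≠ 0) :
    ∃ r, IsReduction (dat A (IsLocalRing.residue A) IsLocalRing.residue_surjective N hN) r := by
  obtain ⟨g, h1, h2⟩ := Fermat.Agent.Cusps.genusEq N A hN
  obtain ⟨r, hr1, hr2⟩ := (dat A (IsLocalRing.residue A) IsLocalRing.residue_surjective N
    hN).exists_reduction h1 h2
  exact ⟨r, hr1, hr2⟩

/-- **The reduction inputs of the prelude hold** at every place not above a divisor of `N`. -/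
theorem reductionInputs (hℓ : ℓ.Prime) (hℓN : ¬ ℓ ∣ N) (hA : A.LiesOverPrime ℓ) :
    ReductionInputsModL A N := by
  have hN := natCast_ne_zero_res hℓ hℓN hA
  obtain ⟨r, hr⟩ := exists_isReduction (A := A) hN
  exact ⟨r, isPlaceReductionAlong A (IsLocalRing.residue A) IsLocalRing.residue_surjective N hN hr,
    principalGenerated A (IsLocalRing.residue A) IsLocalRing.residue_surjective N hN⟩

end

section Prime

variable {p : ℕ} [hp : Fact p.Prime] {A : ValuationSubring Qb}
  (hpk : (p : IsLocalRing.ResidueField A) ≠ 0)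
  {r : Place Qb (modularFunctionFieldBar p) →
    Place (IsLocalRing.ResidueField A) (modularFunctionFieldFullC (IsLocalRing.ResidueField A) p)}
  (hr : IsReduction (dat A (IsLocalRing.residue A) IsLocalRing.residue_surjective p hpk) r)

include hr in
/-- uniqueness of the reduction map -/
theorem placeReduction_eq (h : ReductionInputsModL A p) : placeReductionModL h = r := by
  have h1 := isPlaceReductionModL_placeReductionModL h
  have h2 := isPlaceReductionAlong A (IsLocalRing.residue A) IsLocalRing.residue_surjective p hpk hr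
  have hgen := h.choose_spec.2
  rcases IsPlaceReductionAlong.eq_or_const_of_agree (A := A) (π := IsLocalRing.residue A) (N := p)
    (r₁ := placeReductionModL h) (r₂ := r) hgen (by
      rintro D ⟨y, hy, hyk, hne, hD⟩
      ext Q
      rw [h1.2 y hy hyk hne D hD Q, h2.2 y hy hyk hne D hD Q])
    (fun P => MzCusp.degL P)
    (fun n hn x => Fermat.Agent.BaseChangeFF.pic0_divisible Qb (modularFunctionFieldBar p) n
      (Nat.pos_of_ne_zero hn) x) with h3 | h3
  · exact h3
  · exfalso
    have h4 := h3 (cInf p) (cZero p)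
    rw [red_cInf h hpk, red_cZero h hpk] at h4
    exact (cDk A hpk).inf_ne_zero hp.out.one_lt h4

/-- the reduction map on classes is the specialization homomorphism -/
theorem reductionModL_eq (h : ReductionInputsModL A p) (x : JZero p) :
    reductionModL A p x = spHom hr x := by
  obtain ⟨D, rfl⟩ := Pic0.mk_surjective x
  rw [reductionModL_mk h, spHom_mk]
  congr 1
  apply Subtype.ext
  rw [coe_reductionDegZeroAlong, coe_spDiv, placeReduction_eq hpk hr h]

end Prime

theorem sl_smul_zero {K F : Type*} [Field K] [Field F] [Algebra K F] (g : SemilinearAut K F) :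
    g • (0 : Pic0 K F) = 0 := by
  rw [← Pic0.mk_zero, SemilinearAut.pic0_smul_mk, map_zero]

section Hecke

variable {p : ℕ} [hp : Fact p.Prime] {A : ValuationSubring Qb} {ℓ : ℕ}

theorem spHom_hecke_zero (hℓ : ℓ.Prime) (hℓp : ¬ ℓ ∣ p)
    (hpk : (p : IsLocalRing.ResidueField A) ≠ 0)
    {r : Place Qb (modularFunctionFieldBar p) →
      Place (IsLocalRing.ResidueField A)
        (modularFunctionFieldFullC (IsLocalRing.ResidueField A) p)}
    (hr : IsReduction (dat A (IsLocalRing.residue A) IsLocalRing.residue_surjective p hpk) r)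
    (hA : A.LiesOverPrime ℓ)
    (q : ℕ) [hqf : Fact q.Prime] [hqz : NeZero q] (hqp : ¬ q ∣ p) (x : JZero p)
    (hx : spHom hr x = 0) : spHom hr (heckeOperatorAlong Qb p q x) = 0 := by
  have i2 : CharP (IsLocalRing.ResidueField A) ℓ := HeckeRed.charP_residueField hℓ hA
  by_cases hqℓ : q = ℓ
  · have hqc : CharP (IsLocalRing.ResidueField A) q := by rw [hqℓ]; exact i2
    have i4 : PerfectRing (IsLocalRing.ResidueField A) q := inferInstance
    have h1 := spHom_hecke_eq A (IsLocalRing.residue A) IsLocalRing.residue_surjective p hpk hr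
      q hqp x
    have h3 : ∀ g : SemilinearAut (IsLocalRing.ResidueField A)
      (modularFunctionFieldFullC (IsLocalRing.ResidueField A) p),
      g • (0 : Pic0 (IsLocalRing.ResidueField A)
        (modularFunctionFieldFullC (IsLocalRing.ResidueField A) p)) = 0 := fun g => sl_smul_zero g
    rw [hx, h3, h3, nsmul_zero, add_zero] at h1
    exact h1
  · refine spHom_hecke_ne A (IsLocalRing.residue A) IsLocalRing.residue_surjective p hpk hr
      q ?_ x hx
    intro h0
    rcases (Nat.Prime.dvd_mul hℓ).1 ((CharP.cast_eq_zero_iff _ ℓ (p * q)).1 h0) with h1 | h1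
    · exact hℓp h1
    · exact hqℓ ((Nat.prime_dvd_prime_iff_eq hℓ hqf.out).1 h1).symm

/-- the kernel of the reduction map is stable under the Hecke operators -/
theorem reductionModL_hecke (hℓ : ℓ.Prime) (hℓp : ¬ ℓ ∣ p) (hA : A.LiesOverPrime ℓ)
    (q : Nat.Primes) (hqp : ¬ (q : ℕ) ∣ p) (x : JZero p) (hx : reductionModL A p x = 0) :
    reductionModL A p (heckeOperatorBar p q x) = 0 := by
  have hpk := natCast_ne_zero_res hℓ hℓp hA
  have h := reductionInputs hℓ hℓp hA
  obtain ⟨r, hr⟩ := exists_isReduction (A := A) hpk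
  have hqf : Fact (q : ℕ).Prime := ⟨q.2⟩
  have hqz : NeZero (q : ℕ) := ⟨q.2.ne_zero⟩
  rw [reductionModL_eq hpk hr h] at hx ⊢
  exact spHom_hecke_zero hℓ hℓp hpk hr hA (q : ℕ) hqp x hx

/-- the kernel of the reduction map is stable under the Hecke ring -/
theorem reductionModL_hsmul (hℓ : ℓ.Prime) (hℓp : ¬ ℓ ∣ p) (hA : A.LiesOverPrime ℓ)
    (t : HRing p) (x : JZero p) (hx : reductionModL A p x = 0) :
    reductionModL A p (t • x) = 0 := by
  induction t using MvPolynomial.induction_on with
  | C a => rw [C_smul, map_zsmul, hx, smul_zero]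
  | add s t hs ht => rw [add_smul, map_add, hs, ht, add_zero]
  | mul_X s q hs =>
    have h1 : (s * MvPolynomial.X q) • x = genT p q • (s • x) := by
      rw [mul_comm, mul_smul]
      rfl
    rw [h1, genT_smul]
    exact reductionModL_hecke hℓ hℓp hA q.1 q.2 _ hs

end Hecke

end Fermat.Agent.MzGal
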