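import Fermat.Agent.MzGal.ThmM
import Fermat.Agent.MazX.ThmM

/-!
# `EisFin` from the local data
-/

set_option autoImplicit false

noncomputable section

open AlgebraicCurve ModularCurve

namespace Fermat.Agent.MzGal

open Fermat.Agent.MzCusp Fermat.Agent.MazX

local notation "Qb" => AlgebraicClosure ℚ
local notation "Γ" => (AlgebraicClosure ℚ ≃ₐ[ℚ] AlgebraicClosure ℚ)

theorem hEval_mem {p : ℕ} [hp : Fact p.Prime] (t : HRing p) :
    hEval p t ∈ Algebra.adjoin ℤ (heckeGens p) := by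
  have h1 : hEval p t ∈ hSub p := (hEvalAux p t).2
  have h2 : hSub p ≤ Algebra.adjoin ℤ (heckeGens p) := by
    apply Algebra.adjoin_mono
    rintro _ ⟨ℓ, rfl⟩
    exact ⟨ℓ.1, fun h => ℓ.2 (by rw [h]), rfl⟩
  exact h2 h1

/-- `EisFin` from S17 and the local data. -/
theorem eisFin_of_local {p : ℕ} [hp : Fact p.Prime] {q : ℕ} (hq : q.Prime)
    (hfg : AddGroup.FG (FixedPoints.addSubgroup Γ (JZero p))) (hloc : HasLocal p q) :
    EisFin p q := by
  obtain ⟨t, htP, m, hm, ht⟩ := exists_hecke_torsion hq hfg hloc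
  exact ⟨hEval p t, hEval_mem t, eps p t, hsmul_cuspClass t, fun h => htP ((mem_PEis p).2 h),
    m, hm, ht⟩

end Fermat.Agent.MzGal
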