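import Fermat.Agent.MzGal.Prim
import Fermat.Agent.SEL.Main
import Fermat.Agent.Frob.QbarInst

/-!
# Interface for the Selmer argument on the `P`-primary part of `J[q ^ n]`

`R` is a (Hecke) ring acting on `J`, commuting with the action of `Γ = Gal(ℚ̄/ℚ)`, `P` is a maximal
ideal of `R` above the prime `q`.
`primT P J (q ^ n)` is the `P`-primary part of `J[q ^ n]`.
-/

set_option autoImplicit false

namespace Fermat.Agent.MzGal

open Fermat.Agent.SEL

local notation "Qb" => AlgebraicClosure ℚ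
local notation "Γ" => (AlgebraicClosure ℚ ≃ₐ[ℚ] AlgebraicClosure ℚ)

section Action

variable {R J G : Type*} [CommRing R] [AddCommGroup J] [Module R J] [Group G]
  [DistribMulAction G J] [SMulCommClass G R J]

theorem smul_mem_prim {P : Ideal R} (s : G) {x : J} (hx : x ∈ prim P J) : s • x ∈ prim P J := by
  obtain ⟨k, hk⟩ := hx
  exact ⟨k, fun a ha => by rw [← smul_comm s a x, hk a ha, smul_zero]⟩

theorem smul_mem_primT {P : Ideal R} {m : ℕ} (s : G) {x : J} (hx : x ∈ primT P J m) :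
    s • x ∈ primT P J m :=
  ⟨smul_mem_prim s hx.1, by rw [smul_comm m s x, hx.2, smul_zero]⟩

/-- the action on the `P`-primary part of the `m`-torsion -/
instance galPrimT (P : Ideal R) (m : ℕ) : DistribMulAction G (primT P J m) where
  smul s x := ⟨s • (x : J), smul_mem_primT s x.2⟩
  one_smul x := Subtype.ext (one_smul G (x : J))
  mul_smul s t x := Subtype.ext (mul_smul s t (x : J))
  smul_zero s := Subtype.ext (smul_zero s)
  smul_add s x y := Subtype.ext (smul_add s (x : J) (y : J))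

theorem coe_smul_primT {P : Ideal R} {m : ℕ} (s : G) (x : primT P J m) :
    ((s • x : primT P J m) : J) = s • (x : J) := rfl

end Action

section Defs

variable {R : Type*} [CommRing R] (P : Ideal R) (J : Type*) [AddCommGroup J] [Module R J]
  [DistribMulAction Γ J] [SMulCommClass Γ R J] (q N : ℕ)

/-- Global facts on the Galois module `J = J₀(N)(ℚ̄)`. -/
structure GalMod : Prop where
  hq : q.Prime
  hN : N.Prime
  hP : P.IsPrime
  hqP : (q : R) ∈ P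
  fin : ∀ n : ℕ, {x : J | q ^ n • x = 0}.Finite
  div : ∀ (n : ℕ) (x : J), ∃ y : J, q ^ n • y = x
  level : ∀ x : J, ∃ E : IntermediateField ℚ Qb, FiniteDimensional ℚ E ∧
    ∀ σ : Γ, (∀ z ∈ E, σ z = z) → σ • x = x
  unr : ∀ ℓ : ℕ, ℓ.Prime → ℓ ≠ q → ℓ ≠ N → ∀ A : ValuationSubring Qb, A.LiesOverPrime ℓ →
    ∀ s ∈ A.inertiaSubgroupIn ℚ, ∀ x : J, (∃ n : ℕ, q ^ n • (s • x - x) = 0) → s • x = x
  es : ∀ ℓ : ℕ, ℓ.Prime → ℓ ≠ q → ℓ ≠ N → ∃ T : R, T - (ℓ + 1 : R) ∈ P ∧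
    ∀ A : ValuationSubring Qb, A.LiesOverPrime ℓ → ∀ σ : Γ, A.IsFrobeniusAt σ ℓ →
      ∀ x : J, (∃ n : ℕ, q ^ n • x = 0) → σ • σ • x - T • (σ • x) + ℓ • x = 0

/-- Local data at `q` (BLOCK LQ). -/
structure LocQ (Aq : ValuationSubring Qb) (c n : ℕ) (M0 : AddSubgroup (primT P J (q ^ n))) :
    Prop where
  quo : ∀ s ∈ Aq.inertiaSubgroupIn ℚ, ∀ m : primT P J (q ^ n), s • m - m ∈ M0
  cyc : ∀ s ∈ Aq.inertiaSubgroupIn ℚ, ∃ k : ℕ, (∀ ζ : Qb, ζ ^ q = 1 → s ζ = ζ ^ k) ∧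
    ∀ m ∈ M0, s • m = k • m
  card : (Nat.card M0) ^ 2 ≤ c * Nat.card (primT P J (q ^ n))
  pr : ∀ a : primT P J (q ^ n), PR Aq (fun s : Γ => s • a - a)
  kum : ∀ (y : J) (hy : ∀ s : Γ, s • y - y ∈ primT P J (q ^ n)),
    (∃ x : J, (∀ s : Γ, s • x = x) ∧ q ^ n • y = c • x) →
    (∀ s ∈ Aq.inertiaSubgroupIn ℚ, (⟨s • y - y, hy s⟩ : primT P J (q ^ n)) ∈ M0) ∧
      PR Aq (fun s : Γ => (⟨s • y - y, hy s⟩ : primT P J (q ^ n)))

/-- Local data at `N` (BLOCK LN). -/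
structure LocN (AN : ValuationSubring Qb) (c n : ℕ) : Prop where
  unip : ∀ s ∈ AN.inertiaSubgroupIn ℚ, ∀ m : primT P J (q ^ n),
    s • (s • m - m) = s • m - m
  card : Nat.card (primT P J (q ^ n)) ≤ c * (Nat.card {m : primT P J (q ^ n) //
    ∀ s ∈ AN.inertiaSubgroupIn ℚ, s • m = m}) ^ 2
  kum : ∀ x : J, (∀ s : Γ, s • x = x) →
    ∃ z : J, q ^ n • z = c • x ∧ ∀ s ∈ AN.inertiaSubgroupIn ℚ, s • z = z

end Defs

end Fermat.Agent.MzGal
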