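import Mathlib

/-!
# Stable subgroups of prime index

A finite abelian `q`-group with an action of `G`, such that the kernel of a character
`χ : G → (ℤ/q)ˣ` acts through elements of `q`-power order, has a stable subgroup of index `q`.
-/

set_option autoImplicit false

namespace Fermat.Agent.MzGal

section Actions

variable {G W : Type*} [Group G] [AddCommGroup W] [DistribMulAction G W]

/-- action on a stable subgroup -/
@[reducible] def subAct (V : AddSubgroup W) (hV : ∀ g : G, ∀ v ∈ V, g • v ∈ V) :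
    DistribMulAction G V where
  smul g v := ⟨g • (v : W), hV g v v.2⟩
  one_smul v := Subtype.ext (one_smul G (v : W))
  mul_smul g h v := Subtype.ext (mul_smul g h (v : W))
  smul_zero g := Subtype.ext (smul_zero g)
  smul_add g v w := Subtype.ext (smul_add g (v : W) (w : W))

/-- action on the quotient by a stable subgroup -/
@[reducible] def quotAct (V : AddSubgroup W) (hV : ∀ g : G, ∀ v ∈ V, g • v ∈ V) :
    DistribMulAction G (W ⧸ V) where
  smul g := QuotientAddGroup.map V V (DistribSMul.toAddMonoidHom W g) (fun v hv => hV g v hv)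
  one_smul v := by
    induction v using QuotientAddGroup.induction_on with
    | H v =>
      show ((1 : G) • v : W) = (QuotientAddGroup.mk v : W ⧸ V)
      rw [one_smul]
  mul_smul g h v := by
    induction v using QuotientAddGroup.induction_on with
    | H v =>
      show QuotientAddGroup.mk (((g * h) • v : W)) = (QuotientAddGroup.mk (g • h • v) : W ⧸ V)
      rw [mul_smul]
  smul_zero g := map_zero _
  smul_add g v w := map_add _ v w

end Actions

section FixedVector

/-- a group all of whose elements act with `q`-power order on a nontrivial finite `q`-group has a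
nonzero fixed vector -/
theorem exists_fixed {H W : Type*} [Group H] [AddCommGroup W] [DistribMulAction H W] [Finite W]
    {q : ℕ} [hq : Fact q.Prime] (hW : q ∣ Nat.card W)
    (hH : ∀ h : H, ∃ k : ℕ, ∀ x : W, h ^ (q ^ k) • x = x) :
    ∃ w : W, w ≠ 0 ∧ ∀ h : H, h • w = w := by
  classical
  let φ : H →* Equiv.Perm W := MulAction.toPermHom H W
  have hP : IsPGroup q φ.range := by
    rintro ⟨_, h, rfl⟩
    obtain ⟨k, hk⟩ := hH h
    refine ⟨k, Subtype.ext ?_⟩
    rw [SubmonoidClass.coe_pow, ← map_pow]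
    exact Equiv.ext fun x => hk x
  have h1 := hP.card_modEq_card_fixedPoints W
  have h2 : q ∣ Nat.card (MulAction.fixedPoints φ.range W) :=
    (Nat.modEq_zero_iff_dvd).1 (h1.symm.trans ((Nat.modEq_zero_iff_dvd).2 hW))
  have h3 : (0 : W) ∈ MulAction.fixedPoints φ.range W := by
    rintro ⟨_, h, rfl⟩
    exact smul_zero h
  have h4 : 1 < Nat.card (MulAction.fixedPoints φ.range W) := by
    have h5 : 0 < Nat.card (MulAction.fixedPoints φ.range W) := by
      have : Nonempty (MulAction.fixedPoints φ.range W) := ⟨⟨0, h3⟩⟩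
      exact Nat.card_pos
    exact lt_of_lt_of_le hq.out.one_lt (Nat.le_of_dvd h5 h2)
  rw [Finite.one_lt_card_iff_nontrivial] at h4
  obtain ⟨w, hw⟩ := exists_ne (⟨0, h3⟩ : MulAction.fixedPoints φ.range W)
  refine ⟨w, fun h => hw (Subtype.ext h), fun h => ?_⟩
  exact w.2 ⟨φ h, h, rfl⟩

end FixedVector

section Eigen

variable {W : Type*} [AddCommGroup W] {q : ℕ} [hq : Fact q.Prime] [Module (ZMod q) W]

theorem exists_eigen [Nontrivial W] [Module.Finite (ZMod q) W] (f : Module.End (ZMod q) W)
    (hf : f ^ q = f) : ∃ (c : ZMod q) (w : W), w ≠ 0 ∧ f w = c • w := by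
  have hdvd : minpoly (ZMod q) f ∣ Polynomial.X ^ q - Polynomial.X := by
    apply minpoly.dvd
    rw [map_sub, map_pow, Polynomial.aeval_X, hf, sub_self]
  have hsplit : (Polynomial.X ^ q - Polynomial.X : Polynomial (ZMod q)).Splits := by
    have h1 := FiniteField.X_pow_card_sub_X_natDegree_eq (ZMod q) hq.out.one_lt
    have h2 := FiniteField.roots_X_pow_card_sub_X (ZMod q)
    rw [ZMod.card] at h2
    rw [Polynomial.splits_iff_card_roots, h2, h1]
    show Finset.card Finset.univ = q
    rw [Finset.card_univ, ZMod.card]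
  have hne : (Polynomial.X ^ q - Polynomial.X : Polynomial (ZMod q)) ≠ 0 :=
    FiniteField.X_pow_card_sub_X_ne_zero (ZMod q) hq.out.one_lt
  have hdeg : (minpoly (ZMod q) f).degree ≠ 0 :=
    (minpoly.degree_pos (Algebra.IsIntegral.isIntegral f)).ne'
  obtain ⟨c, hc⟩ := (hsplit.of_dvd hne hdvd).exists_eval_eq_zero hdeg
  obtain ⟨w, hw⟩ := (Module.End.hasEigenvalue_of_isRoot (f := f) (μ := c) hc).exists_hasEigenvector
  exact ⟨c, w, hw.2, hw.apply_eq_smul⟩

/-- an additive endomorphism with `f ^ q = f` has an eigenvector -/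
theorem exists_eigen' [Nontrivial W] [Module.Finite (ZMod q) W] (f : W →+ W)
    (hf : ∀ w, f^[q] w = f w) : ∃ (c : ZMod q) (w : W), w ≠ 0 ∧ f w = c • w := by
  obtain ⟨c, w, h1, h2⟩ := exists_eigen (f.toZModLinearMap q) (by
    ext w
    rw [Module.End.pow_apply]
    exact hf w)
  exact ⟨c, w, h1, h2⟩

theorem map_zmod_smul' (f : W →+ W) (c : ZMod q) (w : W) : f (c • w) = c • f w :=
  map_smul (f.toZModLinearMap q) c w

theorem card_span [Nontrivial W] (w : W) (hw : w ≠ 0)
    (hs : (Submodule.span (ZMod q) {w}).toAddSubgroup = ⊤) : Nat.card W = q := by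
  have hinj : Function.Bijective (fun a : ZMod q => a • w) := by
    constructor
    · intro a b hab
      have h1 : (a - b) • w = 0 := by rw [sub_smul, sub_eq_zero]; exact hab
      rcases smul_eq_zero.1 h1 with h | h
      · exact sub_eq_zero.1 h
      · exact absurd h hw
    · intro v
      have h1 : v ∈ (Submodule.span (ZMod q) {w}).toAddSubgroup := by rw [hs]; trivial
      exact Submodule.mem_span_singleton.1 h1
  rw [← Nat.card_eq_of_bijective _ hinj, Nat.card_zmod]

end Eigen

section Simple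

variable {G W : Type*} [Group G] [AddCommGroup W] [DistribMulAction G W] [Finite W]
  {q : ℕ} [hq : Fact q.Prime]

theorem card_of_simple [Nontrivial W] (χ : G →* (ZMod q)ˣ) (hW : ∀ w : W, ∃ k : ℕ, q ^ k • w = 0)
    (hH : ∀ h ∈ χ.ker, ∃ k : ℕ, ∀ x : W, h ^ (q ^ k) • x = x)
    (hs : ∀ V : AddSubgroup W, (∀ g : G, ∀ v ∈ V, g • v ∈ V) → V = ⊥ ∨ V = ⊤) :
    Nat.card W = q := by
  classical
  -- `W` is killed by `q`
  have hq0 : ∀ w : W, q • w = 0 := by
    let V : AddSubgroup W := (nsmulAddMonoidHom q : W →+ W).ker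
    have hV : ∀ g : G, ∀ v ∈ V, g • v ∈ V := by
      intro g v hv
      have hv' : q • v = 0 := hv
      show q • (g • v) = 0
      rw [smul_comm q g v, hv', smul_zero]
    rcases hs V hV with h | h
    · exfalso
      obtain ⟨w, hw⟩ := exists_ne (0 : W)
      have h1 : ∀ k : ℕ, q ^ k • w ≠ 0 := by
        intro k
        induction k with
        | zero => simpa using hw
        | succ k ih =>
          intro h2
          apply ih
          have h3 : q ^ k • w ∈ V := by
            show q • (q ^ k • w) = 0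
            rw [smul_smul, ← pow_succ', h2]
          rw [h] at h3
          exact h3
      obtain ⟨k, hk⟩ := hW w
      exact h1 k hk
    · intro w
      have : w ∈ V := by rw [h]; trivial
      exact this
  let i1 : Module (ZMod q) W := AddCommGroup.zmodModule hq0
  have i2 : Module.Finite (ZMod q) W := Module.Finite.of_finite
  have hcard : q ∣ Nat.card W := by
    obtain ⟨w, hw⟩ := exists_ne (0 : W)
    have h1 : addOrderOf w = q := by
      rcases (Nat.dvd_prime hq.out).1 (addOrderOf_dvd_of_nsmul_eq_zero (hq0 w)) with h | h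
      · exact absurd (AddMonoid.addOrderOf_eq_one_iff.1 h) hw
      · exact h
    rw [← h1]
    exact addOrderOf_dvd_natCard w
  -- `ker χ` acts trivially
  have hfix : ∀ h ∈ χ.ker, ∀ w : W, h • w = w := by
    let V : AddSubgroup W :=
      { carrier := {w | ∀ h ∈ χ.ker, h • w = w}
        zero_mem' := fun h _ => smul_zero h
        add_mem' := fun ha hb h hh => by rw [smul_add, ha h hh, hb h hh]
        neg_mem' := fun ha h hh => by rw [smul_neg, ha h hh] }
    have hV : ∀ g : G, ∀ v ∈ V, g • v ∈ V := by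
      intro g v hv h hh
      have h1 : g⁻¹ * h * g ∈ χ.ker := by
        have := (inferInstance : χ.ker.Normal).conj_mem h hh g⁻¹
        rwa [inv_inv] at this
      have h2 := hv _ h1
      rw [mul_smul, mul_smul, inv_smul_eq_iff] at h2
      exact h2
    rcases hs V hV with h | h
    · exfalso
      obtain ⟨w, hw, hw1⟩ := exists_fixed (H := χ.ker) (W := W) hcard (fun h => by
        obtain ⟨k, hk⟩ := hH h.1 h.2
        exact ⟨k, fun x => hk x⟩)
      apply hw
      have h1 : w ∈ V := fun h hh => hw1 ⟨h, hh⟩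
      rw [h] at h1
      exact h1
    · intro g hg w
      have : w ∈ V := by rw [h]; trivial
      exact this g hg
  -- a generator of the image
  obtain ⟨⟨_, g0, rfl⟩, hg0⟩ := IsCyclic.exists_generator (α := χ.range)
  have hgen : ∀ g : G, ∃ n : ℤ, ∃ h ∈ χ.ker, g = g0 ^ n * h := by
    intro g
    obtain ⟨n, hn⟩ := hg0 ⟨χ g, g, rfl⟩
    refine ⟨n, (g0 ^ n)⁻¹ * g, ?_, by group⟩
    rw [MonoidHom.mem_ker, map_mul, map_inv, map_zpow]
    have h1 : χ g0 ^ n = χ g := congrArg Subtype.val hn
    rw [h1, inv_mul_cancel]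
  -- the action of `g0`
  have hfn : ∀ (n : ℕ) (w : W), (DistribSMul.toAddMonoidHom W g0)^[n] w = g0 ^ n • w := by
    intro n
    induction n with
    | zero => intro w; rw [pow_zero, one_smul]; rfl
    | succ n ih =>
      intro w
      rw [Function.iterate_succ_apply', ih, pow_succ', mul_smul]
      rfl
  obtain ⟨c, w, hw0, hw1⟩ := @exists_eigen' W _ q hq i1 _ i2 (DistribSMul.toAddMonoidHom W g0) (by
    intro w
    rw [hfn]
    have h1 : g0 ^ (q - 1) ∈ χ.ker := by
      rw [MonoidHom.mem_ker, map_pow]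
      exact ZMod.units_pow_card_sub_one_eq_one q (χ g0)
    have h2 : g0 ^ q = g0 * g0 ^ (q - 1) := by
      rw [← pow_succ', Nat.sub_add_cancel hq.out.one_lt.le]
    rw [h2, mul_smul, hfix _ h1]
    rfl)
  replace hw1 : g0 • w = c • w := hw1
  -- its span is stable
  let V : AddSubgroup W := (Submodule.span (ZMod q) {w}).toAddSubgroup
  have hV0 : ∀ v : W, v ∈ V ↔ ∃ a : ZMod q, a • w = v := fun v => Submodule.mem_span_singleton
  have hgc : ∀ g : G, ∀ v : W, ∀ a : ZMod q, g • (a • v) = a • (g • v) :=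
    fun g v a => map_zmod_smul' (DistribSMul.toAddMonoidHom W g) a v
  have hc0 : c ≠ 0 := by
    rintro rfl
    rw [zero_smul] at hw1
    exact hw0 ((smul_eq_zero_iff_eq g0).1 hw1)
  have hstab0 : ∀ n : ℤ, ∃ a : ZMod q, g0 ^ n • w = a • w := by
    have hpos : ∀ n : ℕ, ∃ a : ZMod q, g0 ^ n • w = a • w := by
      intro n
      refine ⟨c ^ n, ?_⟩
      induction n with
      | zero => rw [pow_zero, pow_zero, one_smul, one_smul]
      | succ n ih => rw [pow_succ, pow_succ, mul_smul, hw1, hgc, ih, smul_smul, mul_comm]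
    intro n
    obtain ⟨m, rfl | rfl⟩ := n.eq_nat_or_neg
    · obtain ⟨a, ha⟩ := hpos m
      exact ⟨a, by rw [zpow_natCast, ha]⟩
    · refine ⟨(c ^ m)⁻¹, ?_⟩
      have h1 : g0 ^ m • w = c ^ m • w := by
        clear hpos
        induction m with
        | zero => rw [pow_zero, pow_zero, one_smul, one_smul]
        | succ n ih => rw [pow_succ, pow_succ, mul_smul, hw1, hgc, ih, smul_smul, mul_comm]
      rw [zpow_neg, zpow_natCast, inv_smul_eq_iff, hgc, h1, smul_smul,
        inv_mul_cancel₀ (pow_ne_zero m hc0), one_smul]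
  have hV : ∀ g : G, ∀ v ∈ V, g • v ∈ V := by
    intro g v hv
    obtain ⟨a, rfl⟩ := (hV0 v).1 hv
    obtain ⟨n, h, hh, rfl⟩ := hgen g
    obtain ⟨b, hb⟩ := hstab0 n
    rw [hgc, mul_smul, hfix h hh, hb, hV0]
    exact ⟨a * b, by rw [mul_smul]⟩
  have hVtop : V = ⊤ := by
    rcases hs V hV with h | h
    · exfalso
      have h1 : w ∈ V := (hV0 w).2 ⟨1, one_smul _ _⟩
      rw [h] at h1
      exact hw0 h1
    · exact h
  exact card_span w hw0 hVtop

end Simple

section Main

variable {G M : Type*} [Group G] [AddCommGroup M] [DistribMulAction G M] [Finite M]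
  {q : ℕ} [hq : Fact q.Prime]

/-- **stable subgroups of index `q`** -/
theorem exists_index (χ : G →* (ZMod q)ˣ) (hM : ∀ m : M, ∃ k : ℕ, q ^ k • m = 0)
    (hH : ∀ h ∈ χ.ker, ∃ k : ℕ, ∀ x : M, h ^ (q ^ k) • x = x)
    (M2 : AddSubgroup M) (h2 : ∀ s : G, ∀ m ∈ M2, s • m ∈ M2) (hbot : M2 ≠ ⊥) :
    ∃ M1 ≤ M2, (∀ s : G, ∀ m ∈ M1, s • m ∈ M1) ∧ M1.relIndex M2 = q := by
  classical
  have hfin : {V : AddSubgroup M | V < M2 ∧ ∀ s : G, ∀ m ∈ V, s • m ∈ V}.Finite :=
    Set.toFinite _
  have hne : {V : AddSubgroup M | V < M2 ∧ ∀ s : G, ∀ m ∈ V, s • m ∈ V}.Nonempty :=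
    ⟨⊥, bot_lt_iff_ne_bot.2 hbot, fun s m hm => by
      rw [AddSubgroup.mem_bot] at hm ⊢
      rw [hm, smul_zero]⟩
  obtain ⟨M1, hM1⟩ := hfin.exists_maximal hne
  obtain ⟨⟨hlt, hst⟩, hmax⟩ := hM1
  refine ⟨M1, hlt.le, hst, ?_⟩
  letI a1 : DistribMulAction G M2 := subAct M2 h2
  have hsm : ∀ (g : G) (v : M2), ((g • v : M2) : M) = g • (v : M) := fun _ _ => rfl
  have hV1 : ∀ g : G, ∀ v ∈ M1.addSubgroupOf M2, g • v ∈ M1.addSubgroupOf M2 := by
    intro g v hv
    rw [AddSubgroup.mem_addSubgroupOf] at hv ⊢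
    rw [hsm]
    exact hst g _ hv
  letI a2 : DistribMulAction G (M2 ⧸ M1.addSubgroupOf M2) := quotAct _ hV1
  have hsq : ∀ (g : G) (v : M2), (g • (QuotientAddGroup.mk v : M2 ⧸ M1.addSubgroupOf M2)) =
      QuotientAddGroup.mk (g • v) := fun _ _ => rfl
  have hnt : Nontrivial (M2 ⧸ M1.addSubgroupOf M2) := by
    obtain ⟨m, hm2, hm1⟩ := SetLike.exists_of_lt hlt
    refine ⟨⟨QuotientAddGroup.mk ⟨m, hm2⟩, 0, fun h => hm1 ?_⟩⟩
    rw [QuotientAddGroup.eq_zero_iff, AddSubgroup.mem_addSubgroupOf] at h
    exact h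
  have hcard := card_of_simple (W := M2 ⧸ M1.addSubgroupOf M2) χ (by
      intro w
      induction w using QuotientAddGroup.induction_on with
      | H v =>
        obtain ⟨k, hk⟩ := hM (v : M)
        refine ⟨k, ?_⟩
        rw [← QuotientAddGroup.mk_nsmul]
        have : q ^ k • v = 0 := Subtype.ext hk
        rw [this]
        rfl) (by
      intro h hh
      obtain ⟨k, hk⟩ := hH h hh
      refine ⟨k, fun w => ?_⟩
      induction w using QuotientAddGroup.induction_on with
      | H v =>
        rw [hsq]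
        congr 1
        exact Subtype.ext (hk v)) (by
      intro V hV
      let V' : AddSubgroup M := (V.comap (QuotientAddGroup.mk' (M1.addSubgroupOf M2))).map
        M2.subtype
      have hV' : ∀ m : M, m ∈ V' ↔ ∃ hm : m ∈ M2,
          (QuotientAddGroup.mk (⟨m, hm⟩ : M2) : M2 ⧸ M1.addSubgroupOf M2) ∈ V := by
        intro m
        constructor
        · rintro ⟨v, hv, rfl⟩
          exact ⟨v.2, hv⟩
        · rintro ⟨hm, h⟩
          exact ⟨⟨m, hm⟩, h, rfl⟩
      have hle : V' ≤ M2 := fun m hm => ((hV' m).1 hm).1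
      have hge : M1 ≤ V' := by
        intro m hm
        refine (hV' m).2 ⟨hlt.le hm, ?_⟩
        have : (QuotientAddGroup.mk (⟨m, hlt.le hm⟩ : M2) : M2 ⧸ M1.addSubgroupOf M2) = 0 := by
          rw [QuotientAddGroup.eq_zero_iff, AddSubgroup.mem_addSubgroupOf]
          exact hm
        rw [this]
        exact zero_mem _
      have hst' : ∀ s : G, ∀ m ∈ V', s • m ∈ V' := by
        intro s m hm
        obtain ⟨hm2, hmV⟩ := (hV' m).1 hm
        refine (hV' _).2 ⟨h2 s m hm2, ?_⟩
        exact hV s _ hmV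
      by_cases hV2 : V' = M2
      · right
        rw [eq_top_iff]
        rintro w -
        induction w using QuotientAddGroup.induction_on with
        | H v =>
          have h1 : (v : M) ∈ V' := by rw [hV2]; exact v.2
          exact ((hV' _).1 h1).2
      · left
        have h1 : V' ≤ M1 := hmax ⟨lt_of_le_of_ne hle hV2, hst'⟩ hge
        rw [eq_bot_iff]
        intro w hw
        induction w using QuotientAddGroup.induction_on with
        | H v =>
          have h3 : (v : M) ∈ V' := (hV' _).2 ⟨v.2, hw⟩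
          rw [AddSubgroup.mem_bot, QuotientAddGroup.eq_zero_iff, AddSubgroup.mem_addSubgroupOf]
          exact h1 h3)
  rw [AddSubgroup.relIndex, AddSubgroup.index]
  exact hcard

end Main

end Fermat.Agent.MzGal
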