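import Fermat.Agent.MzGal.Prim
import Mathlib

/-!
# Unipotent operators on finite `q`-groups have `q`-power order
-/

set_option autoImplicit false

namespace Fermat.Agent.MzGal

/-- `x - 1` nilpotent and `q` nilpotent imply `x ^ (q ^ j) = 1`. -/
theorem exists_pow_eq_one {A : Type*} [CommRing A] {q : ℕ} (hq : q.Prime) {x : A} {m n : ℕ}
    (hx : (x - 1) ^ m = 0) (hn : (q : A) ^ n = 0) : ∃ j : ℕ, x ^ (q ^ j) = 1 := by
  obtain ⟨r, hr⟩ := exists_add_pow_prime_pow_eq hq (x - 1) 1 m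
  have hm : m ≤ q ^ m := (Nat.lt_pow_self hq.one_lt).le
  have h1 : (x - 1) ^ (q ^ m) = 0 := by
    obtain ⟨c, hc⟩ := Nat.exists_eq_add_of_le hm
    rw [hc, pow_add, hx, zero_mul]
  have h2 : (q : A) ∣ x ^ (q ^ m) - 1 := by
    rw [sub_add_cancel, h1, zero_add, one_pow] at hr
    refine ⟨(x - 1) * 1 * r, ?_⟩
    rw [hr]
    ring
  have h3 := dvd_sub_pow_of_dvd_sub (p := q) (a := x ^ (q ^ m)) (b := 1) h2 n
  rw [pow_succ, hn, zero_mul, zero_dvd_iff, one_pow, ← pow_mul, ← pow_add, sub_eq_zero] at h3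
  exact ⟨m + n, h3⟩

/-- operator version -/
theorem exists_iterate_eq {M : Type*} [AddCommGroup M] {q : ℕ} (hq : q.Prime)
    (F : Module.End ℤ M) {m n : ℕ} (hF : (F - 1) ^ m = 0) (hn : ∀ x : M, q ^ n • x = 0) :
    ∃ j : ℕ, F ^ (q ^ j) = 1 := by
  let φ : Polynomial ℤ →+* Module.End ℤ M := (Polynomial.aeval F : Polynomial ℤ →ₐ[ℤ] _)
  have hφX : φ Polynomial.X = F := Polynomial.aeval_X F
  let A := Polynomial ℤ ⧸ RingHom.ker φ
  let x : A := Ideal.Quotient.mk _ Polynomial.X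
  have h1 : (x - 1) ^ m = 0 := by
    show (Ideal.Quotient.mk (RingHom.ker φ) Polynomial.X - 1) ^ m = 0
    rw [← map_one (Ideal.Quotient.mk (RingHom.ker φ)), ← map_sub, ← map_pow,
      Ideal.Quotient.eq_zero_iff_mem, RingHom.mem_ker, map_pow, map_sub, hφX, map_one, hF]
  have h2 : (q : A) ^ n = 0 := by
    show ((q : Polynomial ℤ ⧸ RingHom.ker φ)) ^ n = 0
    rw [← map_natCast (Ideal.Quotient.mk (RingHom.ker φ)), ← map_pow,
      Ideal.Quotient.eq_zero_iff_mem, RingHom.mem_ker, map_pow, map_natCast]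
    ext y
    rw [← Nat.cast_pow, Module.End.natCast_apply, LinearMap.zero_apply, hn]
  obtain ⟨j, hj⟩ := exists_pow_eq_one hq h1 h2
  refine ⟨j, ?_⟩
  have h3 : (Ideal.Quotient.mk (RingHom.ker φ) (Polynomial.X ^ (q ^ j) - 1)) = 0 := by
    rw [map_sub, map_pow, map_one, sub_eq_zero]
    exact hj
  rw [Ideal.Quotient.eq_zero_iff_mem, RingHom.mem_ker, map_sub, map_pow, hφX, map_one,
    sub_eq_zero] at h3
  exact h3

/-- Eichler–Shimura with trivial Frobenius eigenvalues modulo `P`: the operator has `q`-power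
order on a finite `P`-primary module. -/
theorem exists_iterate_of_relation {R M : Type*} [CommRing R] [AddCommGroup M] [Module R M]
    [Finite M] {P : Ideal R} {q : ℕ} (hq : q.Prime) {n : ℕ} (hn : ∀ x : M, q ^ n • x = 0)
    (hM : ∀ x : M, ∃ k : ℕ, ∀ a ∈ P ^ k, a • x = 0) (F : M →+ M)
    (hFR : ∀ (r : R) (x : M), F (r • x) = r • F x) {a b : R} (ha : a ∈ P) (hb : b ∈ P)
    (hrel : ∀ x : M, F (F x - x) - (F x - x) = a • F x + b • x) :
    ∃ j : ℕ, ∀ x : M, F^[q ^ j] x = x := by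
  classical
  -- `P ^ K M = 0`
  have : ∃ K : ℕ, ∀ x : M, ∀ a ∈ P ^ K, a • x = 0 := by
    choose k hk using hM
    obtain ⟨K, hK⟩ := (Set.finite_range k).bddAbove
    exact ⟨K, fun x a ha => hk x a (Ideal.pow_le_pow_right (hK ⟨x, rfl⟩) ha)⟩
  obtain ⟨K, hK⟩ := this
  let f : Module.End ℤ M := F.toIntLinearMap
  have hf1 : ∀ x, (f - 1) x = F x - x := fun x => rfl
  have key : ∀ k : ℕ, ∀ x : M, ((f - 1) ^ (2 * k)) x ∈ (P ^ k) • (⊤ : Submodule R M) := by
    intro k
    induction k with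
    | zero => intro x; rw [pow_zero, Ideal.one_eq_top, Submodule.top_smul]; trivial
    | succ k ih =>
      intro x
      have h1 : (f - 1) ^ (2 * (k + 1)) = (f - 1) ^ 2 * (f - 1) ^ (2 * k) := by
        rw [← pow_add]; congr 1; ring
      rw [h1, Module.End.mul_apply]
      have h2 : ∀ y ∈ (P ^ k) • (⊤ : Submodule R M), ((f - 1) ^ 2 : Module.End ℤ M) y ∈
          (P ^ (k + 1)) • (⊤ : Submodule R M) := by
        intro y hy
        induction hy using Submodule.smul_induction_on' with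
        | smul r hr z hz =>
          have h3 : ((f - 1) ^ 2 : Module.End ℤ M) (r • z) = (r * a) • F z + (r * b) • z := by
            rw [pow_two, Module.End.mul_apply, hf1, hf1, hFR, ← smul_sub, hFR, ← smul_sub, hrel,
              smul_add, smul_smul, smul_smul]
          rw [h3, pow_succ]
          exact add_mem (Submodule.smul_mem_smul (Ideal.mul_mem_mul hr ha) trivial)
            (Submodule.smul_mem_smul (Ideal.mul_mem_mul hr hb) trivial)
        | add y _ z _ hy hz => rw [map_add]; exact add_mem hy hz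
      exact h2 _ (ih x)
  have hnil : (f - 1) ^ (2 * K) = 0 := by
    ext x
    have h1 := key K x
    have h2 : (P ^ K) • (⊤ : Submodule R M) = ⊥ := by
      rw [eq_bot_iff, Submodule.smul_le]
      intro r hr y _
      rw [hK y r hr]
      exact zero_mem _
    rw [h2, Submodule.mem_bot] at h1
    rw [h1]
    rfl
  obtain ⟨j, hj⟩ := exists_iterate_eq hq f hnil hn
  refine ⟨j, fun x => ?_⟩
  have h1 : (f ^ (q ^ j)) x = x := by rw [hj]; rfl
  rw [Module.End.pow_apply] at h1
  exact h1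

end Fermat.Agent.MzGal
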