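import Fermat.Agent.MzGal.Defs
import Fermat.Agent.MzGal.Simple
import Fermat.Agent.MzGal.Unip
import Fermat.Agent.Cheb.Exist
import Fermat.Agent.QuadRep.RootsOfUnity

/-!
# The hypotheses of Mazur's count for the `P`-primary part of `J[q ^ n]`
-/

set_option autoImplicit false
set_option linter.unusedSectionVars false

namespace Fermat.Agent.MzGal

open Fermat.Agent.SEL

local notation "Qb" => AlgebraicClosure ℚ
local notation "Γ" => (AlgebraicClosure ℚ ≃ₐ[ℚ] AlgebraicClosure ℚ)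

variable {R : Type*} [CommRing R] {P : Ideal R} {J : Type*} [AddCommGroup J] [Module R J]
  [DistribMulAction Γ J] [SMulCommClass Γ R J] {q N : ℕ}

theorem primT_nsmul {n : ℕ} (x : primT P J (q ^ n)) : q ^ n • x = 0 := Subtype.ext x.2.2

theorem finite_primT (H : GalMod P J q N) (n : ℕ) : Finite (primT P J (q ^ n)) := by
  have h := (H.fin n).to_subtype
  exact Finite.of_injective (fun x : primT P J (q ^ n) => (⟨x.1, x.2.2⟩ :
    {x : J | q ^ n • x = 0})) (fun x y h => Subtype.ext (congrArg (fun z => (z.1 : J)) h))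

/-- a common field of definition for finitely many elements -/
theorem exists_level {ι : Type*} [Finite ι] (x : ι → J)
    (hlev : ∀ x : J, ∃ E : IntermediateField ℚ Qb, FiniteDimensional ℚ E ∧
      ∀ σ : Γ, (∀ z ∈ E, σ z = z) → σ • x = x) :
    ∃ E : IntermediateField ℚ Qb, FiniteDimensional ℚ E ∧
      ∀ σ : Γ, (∀ z ∈ E, σ z = z) → ∀ i, σ • x i = x i := by
  choose E hE h using fun i => hlev (x i)
  refine ⟨⨆ i, E i, ?_, fun σ hσ i => h i σ fun z hz => hσ z (le_iSup E i hz)⟩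
  have := fun i => hE i
  exact IntermediateField.finiteDimensional_iSup_of_finite

theorem smul_natCast {n : ℕ} (s : Γ) (x : J) : s • ((n : ℕ) • x) = n • (s • x) :=
  (map_nsmul (DistribSMul.toAddMonoidHom J s) n x)

/-- elements with trivial mod `q` cyclotomic character have `q`-power order on `M_n` -/
theorem exists_pow_smul (H : GalMod P J q N) (n : ℕ) (h : Γ)
    (hχ : ∀ ζ : Qb, ζ ^ q = 1 → h ζ = ζ) :
    ∃ k : ℕ, ∀ x : primT P J (q ^ n), h ^ (q ^ k) • x = x := by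
  have hfin := finite_primT H n
  have hqpos := H.hq.pos
  obtain ⟨E, hE, hE1⟩ := exists_level (fun x : primT P J (q ^ n) => (x : J)) H.level
  -- a primitive root
  obtain ⟨ζ, hζ⟩ : ∃ ζ : Qb, IsPrimitiveRoot ζ q := by
    have : NeZero (q : Qb) := ⟨by exact_mod_cast H.hq.ne_zero⟩
    have : NeZero q := ⟨H.hq.ne_zero⟩
    exact HasEnoughRootsOfUnity.exists_primitiveRoot Qb q
  have hint : IsIntegral ℚ ζ := Algebra.IsIntegral.isIntegral ζ
  have hE' : FiniteDimensional ℚ (IntermediateField.adjoin ℚ {ζ}) :=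
    IntermediateField.adjoin.finiteDimensional hint
  obtain ⟨ℓ, hℓ, hℓS, -, A, hA, τ, hτ, hτE⟩ := Fermat.Agent.Cheb.exists_frobenius_eq
    (E ⊔ IntermediateField.adjoin ℚ {ζ}) (IntermediateField.finiteDimensional_sup _ _) h {q, N}
  simp only [Finset.mem_insert, Finset.mem_singleton, not_or] at hℓS
  have hcop : Nat.Coprime q ℓ := (Nat.coprime_primes H.hq hℓ).2 (Ne.symm hℓS.1)
  -- `ℓ ≡ 1 mod q`
  have h1 : τ ζ = ζ := by
    rw [hτE ζ (le_sup_right (a := E) (IntermediateField.mem_adjoin_simple_self ℚ ζ))]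
    exact hχ ζ hζ.pow_eq_one
  have h2 : τ ζ = ζ ^ ℓ :=
    Fermat.Agent.QuadRep.frobenius_smul_root hℓ hA hτ hqpos hcop ζ hζ.pow_eq_one
  have h3 : q ∣ ℓ - 1 := by
    apply hζ.dvd_of_pow_eq_one
    have h4 : ζ ^ (ℓ - 1) * ζ = 1 * ζ := by
      rw [← pow_succ, Nat.sub_add_cancel hℓ.one_lt.le, ← h2, h1, one_mul]
    exact mul_right_cancel₀ (hζ.ne_zero H.hq.ne_zero) h4
  -- `h` and `τ` agree on `M_n`
  have h4 : ∀ x : primT P J (q ^ n), h • x = τ • x := by
    intro x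
    have h5 : (τ⁻¹ * h) • (x : J) = x := by
      refine hE1 (τ⁻¹ * h) ?_ x
      intro z hz
      rw [AlgEquiv.mul_apply, ← hτE z (le_sup_left (a := E) hz)]
      exact τ.symm_apply_apply z
    apply Subtype.ext
    rw [coe_smul_primT, coe_smul_primT]
    calc h • (x : J) = (τ * (τ⁻¹ * h)) • (x : J) := by rw [mul_inv_cancel_left]
      _ = τ • ((τ⁻¹ * h) • (x : J)) := mul_smul _ _ _
      _ = τ • (x : J) := by rw [h5]
  have h5 : ∀ (k : ℕ) (x : primT P J (q ^ n)), h ^ k • x = τ ^ k • x := by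
    intro k
    induction k with
    | zero => intro x; rw [pow_zero, pow_zero]
    | succ k ih => intro x; rw [pow_succ, pow_succ, mul_smul, mul_smul, h4, ih]
  obtain ⟨T, hT, hES⟩ := H.es ℓ hℓ hℓS.1 hℓS.2
  -- relation
  have hℓP : ((ℓ - 1 : ℕ) : R) ∈ P := by
    obtain ⟨c, hc⟩ := h3
    rw [hc, Nat.cast_mul]
    exact Ideal.mul_mem_right _ _ H.hqP
  have hcast : ((ℓ - 1 : ℕ) : R) = (ℓ : R) - 1 := by
    rw [Nat.cast_sub hℓ.one_lt.le, Nat.cast_one]
  have ha : T - 2 ∈ P := by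
    have h6 : T - 2 = (T - (ℓ + 1)) + ((ℓ - 1 : ℕ) : R) := by rw [hcast]; ring
    rw [h6]
    exact add_mem hT hℓP
  have hb : 1 - (ℓ : R) ∈ P := by
    have h6 : 1 - (ℓ : R) = -((ℓ - 1 : ℕ) : R) := by rw [hcast]; ring
    rw [h6]
    exact neg_mem hℓP
  obtain ⟨j, hj⟩ := exists_iterate_of_relation (M := primT P J (q ^ n)) (P := P) H.hq
    (n := n) primT_nsmul (fun x => by
      obtain ⟨k, hk⟩ := x.2.1
      exact ⟨k, fun a ha => Subtype.ext (hk a ha)⟩)
    (DistribSMul.toAddMonoidHom (primT P J (q ^ n)) τ)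
    (fun r x => Subtype.ext (smul_comm τ r (x : J))) ha hb (by
      intro x
      apply Subtype.ext
      show τ • (τ • (x : J) - x) - (τ • (x : J) - x) = (T - 2) • (τ • (x : J)) +
        (1 - (ℓ : R)) • (x : J)
      have h7 := hES A hA τ hτ x ⟨n, x.2.2⟩
      have h8 : τ • τ • (x : J) = T • (τ • (x : J)) - (ℓ : R) • (x : J) := by
        rw [Nat.cast_smul_eq_nsmul]
        rw [← sub_eq_zero, ← h7]
        abel
      rw [smul_sub, h8, sub_smul, sub_smul, one_smul, two_smul]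
      abel)
  refine ⟨j, fun x => ?_⟩
  rw [h5]
  have h6 : ∀ (k : ℕ) (x : primT P J (q ^ n)),
      (DistribSMul.toAddMonoidHom (primT P J (q ^ n)) τ)^[k] x = τ ^ k • x := by
    intro k
    induction k with
    | zero => intro x; rw [pow_zero, one_smul]; rfl
    | succ k ih =>
      intro x
      rw [Function.iterate_succ_apply', ih, pow_succ', mul_smul]
      rfl
  rw [← h6]
  exact hj x

/-- the stable subgroups of index `q` -/
theorem exists_index_primT (H : GalMod P J q N) (n : ℕ) (M2 : AddSubgroup (primT P J (q ^ n)))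
    (h2 : ∀ s : Γ, ∀ m ∈ M2, s • m ∈ M2) (hbot : M2 ≠ ⊥) :
    ∃ M1 ≤ M2, (∀ s : Γ, ∀ m ∈ M1, s • m ∈ M1) ∧ M1.relIndex M2 = q := by
  have hfin := finite_primT H n
  have hqf : Fact q.Prime := ⟨H.hq⟩
  obtain ⟨ζ, hζ⟩ : ∃ ζ : Qb, IsPrimitiveRoot ζ q := by
    have : NeZero (q : Qb) := ⟨by exact_mod_cast H.hq.ne_zero⟩
    have : NeZero q := ⟨H.hq.ne_zero⟩
    exact HasEnoughRootsOfUnity.exists_primitiveRoot Qb q
  have hz : NeZero q := ⟨H.hq.ne_zero⟩
  refine exists_index (q := q) (hζ.autToPow ℚ) (fun m => ⟨n, primT_nsmul m⟩) ?_ M2 h2 hbot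
  intro h hh
  refine exists_pow_smul H n h fun μ hμ => ?_
  have h1 : ((hζ.autToPow ℚ h : ZMod q)).val = 1 % q := by
    rw [MonoidHom.mem_ker] at hh
    rw [hh, Units.val_one, ZMod.val_one_eq_one_mod]
  have h3 : h ζ = ζ := by
    rw [← hζ.autToPow_spec ℚ h, h1, Nat.mod_eq_of_lt H.hq.one_lt, pow_one]
  obtain ⟨i, -, rfl⟩ := hζ.eq_pow_of_pow_eq_one hμ
  rw [map_pow, h3]

theorem selHyp (H : GalMod P J q N) {Aq AN : ValuationSubring Qb} (hAq : Aq.LiesOverPrime q)
    (hAN : AN.LiesOverPrime N) {c n : ℕ} {M0 : AddSubgroup (primT P J (q ^ n))}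
    (L : LocQ P J q Aq c n M0) : SelHyp q N Aq AN M0 where
  hq := H.hq
  hAq := hAq
  hAN := hAN
  cont := by
    have hfin := finite_primT H n
    obtain ⟨E, hE, hE1⟩ := exists_level (fun x : primT P J (q ^ n) => (x : J)) H.level
    exact ⟨E, hE, fun s hs m => Subtype.ext (hE1 s (fun z hz =>
      (IntermediateField.mem_fixingSubgroup_iff E s).1 hs z hz) m)⟩
  unr := by
    intro ℓ h1 h2 h3 A hA s hs m
    refine Subtype.ext (H.unr ℓ h1 h2 h3 A hA s hs m ⟨n, ?_⟩)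
    have : q ^ n • (s • (m : J)) = 0 := (s • m : primT P J (q ^ n)).2.2
    rw [nsmul_sub, this, m.2.2, sub_zero]
  quo := L.quo
  cyc := L.cyc

end Fermat.Agent.MzGal
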