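import Mathlib

/-!
# Primary parts of modules over a commutative ring with finite underlying group
-/

set_option autoImplicit false

namespace Fermat.Agent.MzGal

section Prim

variable {R : Type*} [CommRing R] (P : Ideal R) (Y : Type*) [AddCommGroup Y] [Module R Y]

/-- the elements killed by a power of `P` -/
def prim : Submodule R Y where
  carrier := {y | ∃ k : ℕ, ∀ a ∈ P ^ k, a • y = 0}
  zero_mem' := ⟨0, fun a _ => smul_zero a⟩
  add_mem' := by
    rintro x y ⟨k, hk⟩ ⟨l, hl⟩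
    refine ⟨k + l, fun a ha => ?_⟩
    rw [smul_add, hk a (Ideal.pow_le_pow_right (Nat.le_add_right k l) ha),
      hl a (Ideal.pow_le_pow_right (Nat.le_add_left l k) ha), add_zero]
  smul_mem' := by
    rintro r x ⟨k, hk⟩
    refine ⟨k, fun a ha => ?_⟩
    rw [smul_comm, hk a ha, smul_zero]

/-- the `P`-primary part of the `m`-torsion -/
def primT (m : ℕ) : Submodule R Y where
  carrier := {y | y ∈ prim P Y ∧ m • y = 0}
  zero_mem' := ⟨zero_mem _, smul_zero m⟩
  add_mem' := fun h h' => ⟨add_mem h.1 h'.1, by rw [nsmul_add, h.2, h'.2, add_zero]⟩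
  smul_mem' := fun r x h => ⟨Submodule.smul_mem _ r h.1, by
    rw [smul_comm, h.2, smul_zero]⟩

variable {P Y}

theorem mem_prim {y : Y} : y ∈ prim P Y ↔ ∃ k : ℕ, ∀ a ∈ P ^ k, a • y = 0 := Iff.rfl

theorem mem_primT {m : ℕ} {y : Y} : y ∈ primT P Y m ↔ y ∈ prim P Y ∧ m • y = 0 := Iff.rfl

/-- **Projector onto the `P`-primary part**: for a finite module `Y`, there is `e ∈ 1 + P` acting
as a projector onto the elements killed by a power of `P`. -/
theorem exists_proj [Finite Y] : ∃ e : R, e - 1 ∈ P ∧ (∀ y : Y, e • y ∈ prim P Y) ∧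
    ∀ y ∈ prim P Y, e • y = y := by
  -- the chain `P ^ k Y` stabilizes
  obtain ⟨k, hk⟩ := IsArtinian.monotone_stabilizes (R := R) (M := Y)
    ⟨fun k => OrderDual.toDual ((P ^ k) • (⊤ : Submodule R Y)), fun k l h =>
      Submodule.smul_mono_left (Ideal.pow_le_pow_right h)⟩
  have hk1 : (P ^ k) • (⊤ : Submodule R Y) = (P ^ (k + 1)) • (⊤ : Submodule R Y) :=
    hk (k + 1) (Nat.le_succ k)
  obtain ⟨r, hr1, hr⟩ := Submodule.exists_sub_one_mem_and_smul_eq_zero_of_fg_of_le_smul P
    ((P ^ k) • (⊤ : Submodule R Y)) (IsNoetherian.noetherian _) (by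
      rw [← mul_smul, ← pow_succ', ← hk1])
  set a : R := 1 - r with ha
  have haP : a ∈ P := by
    rw [ha, ← neg_sub]
    exact neg_mem hr1
  -- `r Y` is killed by `P ^ k`
  have h1 : ∀ y : Y, ∀ b ∈ P ^ k, b • (r • y) = 0 := by
    intro y b hb
    rw [smul_comm]
    exact hr _ (Submodule.smul_mem_smul hb Submodule.mem_top)
  -- elements killed by a power of `P` are killed by `P ^ k`
  have h2 : ∀ y ∈ prim P Y, ∀ b ∈ P ^ k, b • y = 0 := by
    rintro y ⟨m, hm⟩ b hb
    have h3 : (1 - a ^ m) • y = y := by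
      rw [sub_smul, one_smul, hm _ (Ideal.pow_mem_pow haP m), sub_zero]
    have h4 : 1 - a ^ m = (∑ i ∈ Finset.range m, a ^ i) * r := by
      have := mul_neg_geom_sum a m
      rw [← this, ha]
      ring
    rw [← h3, h4, mul_smul, smul_comm b, h1 y b hb, smul_zero]
  refine ⟨1 - a ^ (k + 1), ?_, fun y => ?_, fun y hy => ?_⟩
  · rw [sub_sub_cancel_left]
    exact neg_mem (Ideal.pow_mem_of_mem P haP (k + 1) (Nat.succ_pos k))
  · have h4 : 1 - a ^ (k + 1) = (∑ i ∈ Finset.range (k + 1), a ^ i) * r := by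
      have := mul_neg_geom_sum a (k + 1)
      rw [← this, ha]
      ring
    rw [h4, mul_smul]
    exact Submodule.smul_mem _ _ ⟨k, h1 y⟩
  · rw [sub_smul, one_smul, h2 y hy _ (Ideal.pow_le_pow_right (Nat.le_succ k)
      (Ideal.pow_mem_pow haP (k + 1))), sub_zero]

/-- the final deduction -/
theorem exists_annihilator [P.IsPrime] {q : ℕ} (hqP : (q : R) ∈ P) {X : Type*} [AddCommGroup X]
    [Module R X] (hfg : Module.Finite ℤ X) {K : ℕ} {e : R} (he : e ∉ P)
    (h : ∀ x : X, ∃ y : X, (q ^ K : ℕ) • (e • x) = (q ^ (K + 1) : ℕ) • y) :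
    ∃ t : R, t ∉ P ∧ ∀ x : X, (q ^ K : ℕ) • (t • x) = 0 := by
  -- `Z = q ^ K X`
  let Z : Submodule ℤ X := LinearMap.range (LinearMap.lsmul ℤ X ((q : ℤ) ^ K))
  have hmemZ : ∀ z : X, z ∈ Z ↔ ∃ x : X, (q ^ K : ℕ) • x = z := by
    intro z
    constructor
    · rintro ⟨x, rfl⟩
      refine ⟨x, ?_⟩
      rw [LinearMap.lsmul_apply, ← natCast_zsmul]
      push_cast
      rfl
    · rintro ⟨x, rfl⟩
      refine ⟨x, ?_⟩
      rw [LinearMap.lsmul_apply, ← natCast_zsmul]
      push_cast
      rfl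
  have : IsNoetherian ℤ X := isNoetherian_of_isNoetherianRing_of_finite ℤ X
  have : Module.Finite ℤ Z := Module.IsNoetherian.finite ℤ Z
  -- the action of `e` on `Z`
  let f : Z →ₗ[ℤ] Z :=
    (((Module.toAddMonoidEnd R X e : X →+ X).toIntLinearMap).restrict (p := Z) (q := Z) (by
      intro z hz
      obtain ⟨x, rfl⟩ := (hmemZ z).1 hz
      rw [hmemZ]
      refine ⟨e • x, ?_⟩
      show (q ^ K : ℕ) • (e • x) = e • ((q ^ K : ℕ) • x)
      rw [smul_comm]))
  have hf : ∀ z : Z, ((f z : Z) : X) = e • (z : X) := fun z => rfl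
  have hrange : LinearMap.range f ≤ (Ideal.span {(q : ℤ)}) • (⊤ : Submodule ℤ Z) := by
    rintro _ ⟨z, rfl⟩
    obtain ⟨x, hx⟩ := (hmemZ _).1 z.2
    obtain ⟨y, hy⟩ := h x
    have h1 : f z = (q : ℤ) • (⟨(q ^ K : ℕ) • y, (hmemZ _).2 ⟨y, rfl⟩⟩ : Z) := by
      apply Subtype.ext
      rw [hf, ← hx, smul_comm, hy]
      show _ = (q : ℤ) • ((q ^ K : ℕ) • y)
      rw [natCast_zsmul, smul_smul, pow_succ']
    rw [h1]
    exact Submodule.smul_mem_smul (Ideal.mem_span_singleton_self _) Submodule.mem_top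
  obtain ⟨p, hp1, -, hp2, hp3⟩ :=
    LinearMap.exists_monic_and_natDegree_eq_and_coeff_mem_pow_and_aeval_eq_zero ℤ f
      (Ideal.span {(q : ℤ)}) hrange
  have hpow : ∀ (k : ℕ) (z : Z), (((f ^ k) z : Z) : X) = (e ^ k) • (z : X) := by
    intro k
    induction k with
    | zero => intro z; rw [pow_zero, pow_zero, one_smul]; rfl
    | succ k ih =>
      intro z
      rw [pow_succ', pow_succ', Module.End.mul_apply, hf, ih, mul_smul]
  set t : R := Polynomial.aeval e p with ht
  have htz : ∀ z : Z, t • (z : X) = 0 := by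
    intro z
    have h1 : (((Polynomial.aeval f p) z : Z) : X) = t • (z : X) := by
      rw [ht, Polynomial.aeval_eq_sum_range, Polynomial.aeval_eq_sum_range, LinearMap.sum_apply,
        Finset.sum_smul, AddSubmonoidClass.coe_finset_sum]
      refine Finset.sum_congr rfl fun k _ => ?_
      rw [LinearMap.smul_apply, Submodule.coe_smul, hpow, smul_assoc]
    rw [← h1, hp3]
    rfl
  refine ⟨t, fun htP => ?_, fun x => ?_⟩
  · have h2 : t - e ^ p.natDegree ∈ P := by
      rw [ht, Polynomial.aeval_eq_sum_range, Finset.sum_range_succ, Polynomial.Monic.coeff_natDegree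
        hp1, one_smul, add_sub_cancel_right]
      refine Ideal.sum_mem _ fun k hk => ?_
      rw [Finset.mem_range] at hk
      have h3 : p.coeff k ∈ Ideal.span {(q : ℤ)} :=
        Ideal.pow_le_self (by omega) (hp2 k)
      obtain ⟨c, hc⟩ := Ideal.mem_span_singleton.1 h3
      rw [hc, Algebra.smul_def, map_mul, mul_assoc]
      refine Ideal.mul_mem_right _ _ ?_
      rw [map_natCast]
      exact hqP
    have h3 : e ^ p.natDegree ∈ P := by
      have := sub_mem htP h2
      rwa [sub_sub_cancel] at this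
    exact he (Ideal.IsPrime.mem_of_pow_mem inferInstance _ h3)
  · have h4 := htz ⟨(q ^ K : ℕ) • x, (hmemZ _).2 ⟨x, rfl⟩⟩
    rw [smul_comm]
    exact h4

end Prim

end Fermat.Agent.MzGal
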