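import Fermat.Agent.TorsInj.S18Glue
import Fermat.Agent.Cusps.GenusFinal
import Fermat.Agent.Degen.HeckeEq

/-!
# The reduction inputs exist for `J₀(N)` at every place not dividing `N`
-/

set_option autoImplicit false
set_option linter.unusedSectionVars false
set_option maxHeartbeats 1000000
set_option synthInstance.maxHeartbeats 400000

noncomputable section

open AlgebraicCurve Module ModularCurve HahnSeries

namespace Fermat.Agent.MzGal

open Fermat.Agent.Deuring Fermat.Agent.FunField Fermat.Agent.HeckeRed Fermat.Agent.Igusa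
  Fermat.Agent.FunField.PlaceLemmas Fermat.Agent.TorsInj

section Gen

variable {L : Type*} [Field L] [Algebra ℚ L] [IsAlgClosed L] (A : ValuationSubring L)
  {κ : Type*} [Field κ] [IsAlgClosed κ] (π : A →+* κ) [IsLocalHom π] (hπ : Function.Surjective π)
  (N : ℕ) [NeZero N] (hN : (N : κ) ≠ 0)

include hπ hN in
omit [IsAlgClosed L] [IsAlgClosed κ] in
theorem coeffMap_mem_full (y : LaurentSeries A)
    (hy : coeffMap A.subtype y ∈ laurentBaseChange L (modularFunctionFieldFull N)) :
    coeffMap π y ∈ modularFunctionFieldFullC κ N := by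
  have h1 : (⟨coeffMap A.subtype y, hy⟩ : laurentBaseChange L (modularFunctionFieldFull N)) ∈
      (dat A π hπ N hN).O := (mem_dat A π hπ N hN).mpr (emb_mem_gaussRing y)
  have h2 : (((dat A π hπ N hN).res ⟨_, h1⟩ : modularFunctionFieldFullC κ N) :
      LaurentSeries κ) = coeffMap π y := by
    rw [dat_res]
    exact gaussRes_emb y
  have h3 := ((dat A π hπ N hN).res ⟨_, h1⟩).2
  rw [h2] at h3
  exact h3

include hπ hN in
theorem divOf_mem_closure (x : laurentBaseChange L (modularFunctionFieldFull N)) (hx0 : x ≠ 0)
    (hx : (x : LaurentSeries L) ∈ tame L) :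
    (divOf x : Divisor L (laurentBaseChange L (modularFunctionFieldFull N))) ∈
      AddSubgroup.closure (integralPrincipalDivisors A π N) := by
  obtain ⟨c, hc0, P, hP, hcP, -⟩ := exists_normalize A π hx (fun h => hx0 (Subtype.ext h))
  have hPmem : coeffMap A.subtype P ∈ laurentBaseChange L (modularFunctionFieldFull N) := by
    have h1 : coeffMap A.subtype P = algebraMap L (LaurentSeries L) c⁻¹ * (x : LaurentSeries L) := by
      rw [← hcP, ← mul_assoc, ← map_mul, inv_mul_cancel₀ hc0, map_one, one_mul]
    rw [h1]
    exact mul_mem (algebraMap_mem _ _) x.2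
  apply AddSubgroup.subset_closure
  refine ⟨P, hPmem, coeffMap_mem_full A π hπ N hN P hPmem, hP, fun Q => ?_⟩
  rw [divOf_apply]
  have h2 : x = c • (⟨coeffMap A.subtype P, hPmem⟩ :
      laurentBaseChange L (modularFunctionFieldFull N)) := by
    apply Subtype.ext
    rw [← hcP, ← Algebra.smul_def]
    rfl
  rw [h2]
  exact FunField.PlaceLemmas.ord_smul_of_ne_zero Q hc0 _

include hπ hN in
theorem principalGenerated : PrincipalGeneratedByIntegral A π N := by
  intro D hD
  obtain ⟨f, hf, hfD⟩ := hD
  have hfull := HeckeRed.laurentBaseChange_full L N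
  have hfm : (f : LaurentSeries L) ∈ modularFunctionFieldFullC L N := hfull ▸ f.2
  rw [modularFunctionFieldFullC, IntermediateField.mem_adjoin_iff_div] at hfm
  obtain ⟨r, hr, s, hs, hrs⟩ := hfm
  have hS : divisorExpansionsC L N ⊆ tame L := by
    exact divisorExpansionsC_subset_tame N
  have hle : Algebra.adjoin L (divisorExpansionsC L N) ≤ tame L := Algebra.adjoin_le hS
  have hle' : ∀ x ∈ Algebra.adjoin L (divisorExpansionsC L N),
      x ∈ laurentBaseChange L (modularFunctionFieldFull N) := by
    intro x hx
    rw [hfull]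
    exact IntermediateField.algebra_adjoin_le_adjoin L _ hx
  have hr0 : r ≠ 0 := by
    rintro rfl
    rw [zero_div] at hrs
    exact hf (Subtype.ext hrs)
  have hs0 : s ≠ 0 := by
    rintro rfl
    rw [div_zero] at hrs
    exact hf (Subtype.ext hrs)
  have h1 := divOf_mem_closure A π hπ N hN ⟨r, hle' r hr⟩
    (fun h => hr0 (congrArg Subtype.val h)) (hle hr)
  have h2 := divOf_mem_closure A π hπ N hN ⟨s, hle' s hs⟩
    (fun h => hs0 (congrArg Subtype.val h)) (hle hs)
  have h3 : D = divOf (⟨r, hle' r hr⟩ : laurentBaseChange L (modularFunctionFieldFull N)) -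
      divOf (⟨s, hle' s hs⟩ : laurentBaseChange L (modularFunctionFieldFull N)) := by
    ext Q
    rw [Finsupp.sub_apply, divOf_apply, divOf_apply, hfD Q]
    have h4 : f * (⟨s, hle' s hs⟩ : laurentBaseChange L (modularFunctionFieldFull N)) =
        ⟨r, hle' r hr⟩ := by
      apply Subtype.ext
      show (f : LaurentSeries L) * s = r
      rw [hrs, div_mul_cancel₀ _ hs0]
    rw [← h4, Q.ord_mul hf (fun h => hs0 (congrArg Subtype.val h))]
    ring
  rw [h3]
  exact sub_mem h1 h2

/-- an `IsReduction` map is a place reduction in the sense of the prelude -/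
theorem isPlaceReductionAlong {r : Place L (laurentBaseChange L (modularFunctionFieldFull N)) →
    Place κ (modularFunctionFieldFullC κ N)} (hr : IsReduction (dat A π hπ N hN) r) :
    IsPlaceReductionAlong A π N r := by
  refine ⟨fun P => ?_, fun y hy hyk hne D hD Q => ?_⟩
  · rw [Deuring.deg_eq_one, Deuring.deg_eq_one]
  · obtain ⟨hO, hres⟩ := dat_compat A π hπ N hN y hy hyk
    have h := hr.div ⟨_, hO⟩ (by
      rw [hres]
      intro h0
      exact hne (congrArg Subtype.val h0)) D hD Q
    rw [hres] at h
    exact h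

end Gen

end Fermat.Agent.MzGal
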