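import Fermat.Agent.MzGal.Red
import Fermat.Agent.MzGal.JMod
import Fermat.Agent.S18

/-!
# THEOREM M: rational points of `X₀(N)` and reduction to the cusps
-/

set_option autoImplicit false
set_option linter.unusedSectionVars false
set_option maxHeartbeats 1000000
set_option synthInstance.maxHeartbeats 400000

noncomputable section

open AlgebraicCurve Module ModularCurve HahnSeries

attribute [-instance] Fermat.Agent.X0Places.ffField Fermat.Agent.X0Places.ffAlgebra

namespace Fermat.Agent.MzGal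

open Fermat.Agent.MzCusp

local notation "Qb" => AlgebraicClosure ℚ
local notation "Γ" => (AlgebraicClosure ℚ ≃ₐ[ℚ] AlgebraicClosure ℚ)

/-- the local inputs (blocks LQ and LN) at `q` -/
def HasLocal (N : ℕ) [NeZero N] (q : ℕ) : Prop :=
  ∃ (Aq AN : ValuationSubring Qb) (cQ cN : ℕ), Aq.LiesOverPrime q ∧ AN.LiesOverPrime N ∧
    cQ ≠ 0 ∧ cN ≠ 0 ∧ (∀ n, ∃ M0, LocQ (PEis N q) (JZero N) q Aq cQ n M0) ∧
    (∀ n, LocN (PEis N q) (JZero N) q AN cN n)

/-- an element of the Hecke ring outside the Eisenstein prime killing the rational points up to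
torsion -/
theorem exists_hecke_torsion {N : ℕ} [hN : Fact N.Prime] {q : ℕ} (hq : q.Prime)
    (hfg : AddGroup.FG (FixedPoints.addSubgroup Γ (JZero N))) (hloc : HasLocal N q) :
    ∃ t : HRing N, t ∉ PEis N q ∧ ∃ m : ℕ, m ≠ 0 ∧
      ∀ x : JZero N, (∀ s : Γ, s • x = x) → m • (t • x) = 0 := by
  obtain ⟨Aq, AN, cQ, cN, hAq, hAN, hcQ, hcN, hLQ, hLN⟩ := hloc
  exact exists_annihilator_of_local (galMod N hq hN.out) hAq hAN hfg hcQ hcN hLQ hLN

theorem hsmul_cuspClass {N : ℕ} [hN : Fact N.Prime] (t : HRing N) :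
    t • cuspClass N = eps N t • cuspClass N := by
  induction t using MvPolynomial.induction_on with
  | C a =>
    rw [C_smul]
    congr 1
    exact (MvPolynomial.eval_C (f := fun ℓ : GoodPrime N => (((ℓ.1 : ℕ) : ℤ) + 1)) a).symm
  | add s t hs ht =>
    rw [add_smul, map_add, hs, ht]
    exact (add_zsmul _ _ _).symm
  | mul_X s q hs =>
    have h1 : (s * MvPolynomial.X q) • cuspClass N = genT N q • (s • cuspClass N) := by
      rw [mul_comm, mul_smul]
      rfl
    have h2 : eps N (s * MvPolynomial.X q) = (((q.1 : ℕ) : ℤ) + 1) * eps N s := by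
      rw [map_mul, mul_comm, ← eps_genT]
      rfl
    have h3 : ((q.1 : ℕ)) ≠ N := fun h => q.2 (by rw [h])
    rw [h1, hs, genT_smul, map_zsmul, heckeOperatorBar_cuspClass N q.1 h3, h2]
    rw [mul_comm]
    exact (mul_zsmul _ _ _).symm

/-- torsion classes which reduce to zero modulo `2` and modulo `3` vanish -/
theorem eq_zero_of_torsion {N : ℕ} [hN : Fact N.Prime] (h2N : ¬ 2 ∣ N) (h3N : ¬ 3 ∣ N)
    {A2 A3 : ValuationSubring Qb} (hA2 : A2.LiesOverPrime 2) (hA3 : A3.LiesOverPrime 3)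
    {z : JZero N} {m : ℕ} (hm : m ≠ 0) (hz : m • z = 0) (h2 : reductionModL A2 N z = 0)
    (h3 : reductionModL A3 N z = 0) : z = 0 := by
  have f2 : Fact (Nat.Prime 2) := ⟨Nat.prime_two⟩
  have f3 : Fact (Nat.Prime 3) := ⟨Nat.prime_three⟩
  obtain ⟨a, m', hm', hmm⟩ := Nat.exists_eq_pow_mul_and_not_dvd hm 2 (by norm_num)
  have h4 : 2 ^ a • z = 0 := by
    refine Fermat.Agent.S18.result N h2N A2 hA2 (reductionInputs Nat.prime_two h2N hA2) m' hm'
      (2 ^ a • z) ?_ ?_
    · rw [smul_smul, mul_comm, ← hmm, hz]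
    · rw [map_nsmul, h2, smul_zero]
  refine Fermat.Agent.S18.result N h3N A3 hA3 (reductionInputs Nat.prime_three h3N hA3) (2 ^ a)
    (fun h => ?_) z h4 h3
  have := Nat.Prime.dvd_of_dvd_pow Nat.prime_three h
  omega

/-- **THEOREM M.** -/
theorem thmM {N : ℕ} [hN : Fact N.Prime] (hN' : N ∉ ({2, 3, 5, 7, 13} : Finset ℕ))
    (hfg : AddGroup.FG (FixedPoints.addSubgroup Γ (JZero N)))
    (hloc : ∀ q : ℕ, q.Prime → q ∣ N - 1 → HasLocal N q)
    (x : Place Qb (modularFunctionFieldBar N))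
    (hx : ∀ σ : Γ, arithmeticGalois (modularFunctionFieldFull N) σ • x = x)
    {A2 A3 : ValuationSubring Qb} (hA2 : A2.LiesOverPrime 2) (hA3 : A3.LiesOverPrime 3)
    (h2 : ∀ h : ReductionInputsModL A2 N, placeReductionModL h x = placeReductionModL h (cZero N))
    (h3 : ∀ h : ReductionInputsModL A3 N, placeReductionModL h x = placeReductionModL h (cZero N))
    {ℓ : ℕ} (hℓ : ℓ.Prime) (hℓN : ℓ ≠ N) {A : ValuationSubring Qb} (hA : A.LiesOverPrime ℓ)
    (h : ReductionInputsModL A N) :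
    placeReductionModL h x ≠ placeReductionModL h (cInf N) := by
  intro hred
  have h2N : ¬ 2 ∣ N := fun h => hN' (by
    rw [← (Nat.prime_dvd_prime_iff_eq Nat.prime_two hN.out).1 h]; decide)
  have h3N : ¬ 3 ∣ N := fun h => hN' (by
    rw [← (Nat.prime_dvd_prime_iff_eq Nat.prime_three hN.out).1 h]; decide)
  have hℓN' : ¬ ℓ ∣ N := fun h => hℓN ((Nat.prime_dvd_prime_iff_eq hℓ hN.out).1 h)
  -- a prime `q` dividing the order of the reduction of `c`
  set cb := reductionModL A N (cuspClass N) with hcb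
  have hcb0 : cb ≠ 0 :=
    reductionModL_cuspClass_ne_zero (Fermat.Agent.Cusps.genusEq N) hN' hℓ hℓN hA h
  have hcbt : (N - 1) • cb = 0 := by
    rw [hcb, ← map_nsmul, cuspClass_torsion, map_zero]
  have hord : addOrderOf cb ≠ 1 := fun h => hcb0 (AddMonoid.addOrderOf_eq_one_iff.1 h)
  set q := (addOrderOf cb).minFac with hqdef
  have hq : q.Prime := Nat.minFac_prime hord
  have hqd : q ∣ addOrderOf cb := Nat.minFac_dvd _
  obtain ⟨t, htP, m, hm, ht⟩ := exists_hecke_torsion (N := N) hq hfg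
    (hloc q hq (hqd.trans (addOrderOf_dvd_of_nsmul_eq_zero hcbt)))
  -- `t [x - 0] = 0`
  have hrat : ∀ s : Γ, s • diffClass N x (cZero N) = diffClass N x (cZero N) := fun s =>
    galois_smul_diffClass N s x (cZero N) (hx s) (galois_smul_cZero N s)
  have hz : t • diffClass N x (cZero N) = 0 := by
    refine eq_zero_of_torsion h2N h3N hA2 hA3 hm (ht _ hrat) ?_ ?_
    · exact reductionModL_hsmul Nat.prime_two h2N hA2 t _
        (reductionModL_diffClass_eq_zero (reductionInputs Nat.prime_two h2N hA2) (h2 _))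
    · exact reductionModL_hsmul Nat.prime_three h3N hA3 t _
        (reductionModL_diffClass_eq_zero (reductionInputs Nat.prime_three h3N hA3) (h3 _))
  -- `t [x - ∞] = eps(t) c`
  have h4 : t • diffClass N x (cInf N) = eps N t • cuspClass N := by
    rw [← diffClass_add N x (cZero N) (cInf N), smul_add, hz, zero_add]
    exact hsmul_cuspClass t
  have h5 : reductionModL A N (t • diffClass N x (cInf N)) = 0 :=
    reductionModL_hsmul hℓ hℓN' hA t _ (reductionModL_diffClass_eq_zero h hred)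
  rw [h4, map_zsmul, ← hcb, ← addOrderOf_dvd_iff_zsmul_eq_zero] at h5
  exact htP ((mem_PEis N).2 ((Int.natCast_dvd_natCast.2 hqd).trans h5))

end Fermat.Agent.MzGal
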